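import Fermat.Agent.CFT.Ray.RayZetaBdd

/-!
# The ray class group modulo `m` (and a set `T` of real places)

`K` a number field, `m` an ideal of `𝓞 K`, `T` a set of real places.

* `coprimeIdeals K m`: the nonzero ideals coprime to `m`, a submonoid of `Ideal (𝓞 K)`.
* `rayCon K m T`: the congruence `I ∼ I' ⟺ (a) I = (a') I'` for some nonzero ray generators
  `a, a' ∈ rayGen K m T` (`a ≡ a' ≡ 1 mod m`, positive at `T`).
* `RayClassGroup K m T`: the quotient, a commutative group; `rayMk K m T` the class map.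
* `finite_rayClassGroup`: it is finite (`m ≠ ⊥`).
* `rayLift`: the universal property.
* `exists_rayClassSet_eq`: the fibres of `rayMk` are the sets `rayClassSet K m T J` of
  `RayZetaBdd.lean`; `rayPartZeta_sub_bounded`: the partial zeta functions of two ray classes
  differ by a bounded function on `(1, 2]`.
-/

set_option autoImplicit false
set_option linter.unusedSectionVars false

namespace Fermat.Agent.CFT.Ray

open NumberField NumberField.InfinitePlace Ideal
open Fermat.Agent.CFT.Analytic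
open scoped nonZeroDivisors

variable (K : Type*) [Field K] [NumberField K]

/-- The nonzero ideals coprime to `m`. -/
def coprimeIdeals (m : Ideal (𝓞 K)) : Submonoid (Ideal (𝓞 K)) where
  carrier := {I | I ≠ ⊥ ∧ IsCoprime I m}
  mul_mem' := fun {_ _} hI hJ => ⟨mul_ne_zero hI.1 hJ.1, IsCoprime.mul_left hI.2 hJ.2⟩
  one_mem' := ⟨one_ne_zero, isCoprime_one_left⟩

variable {K}

theorem mem_coprimeIdeals {m : Ideal (𝓞 K)} {I : Ideal (𝓞 K)} :
    I ∈ coprimeIdeals K m ↔ I ≠ ⊥ ∧ IsCoprime I m := Iff.rfl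

theorem one_mem_rayGen (m : Ideal (𝓞 K)) (T : Set {w : InfinitePlace K // w.IsReal}) :
    (1 : 𝓞 K) ∈ rayGen K m T := by
  refine ⟨by simp, fun w _ => ?_⟩
  simp

theorem isCoprime_span_of_rayGen {m : Ideal (𝓞 K)} {T : Set {w : InfinitePlace K // w.IsReal}}
    {a : 𝓞 K} (ha : a ∈ rayGen K m T) : IsCoprime (Ideal.span {a}) m := by
  rw [Ideal.isCoprime_iff_exists]
  refine ⟨a, Ideal.mem_span_singleton_self _, 1 - a, ?_, by ring⟩
  have := m.neg_mem ha.1
  rwa [neg_sub] at this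

theorem span_mem_coprimeIdeals {m : Ideal (𝓞 K)} {T : Set {w : InfinitePlace K // w.IsReal}}
    {a : 𝓞 K} (ha : a ∈ rayGen K m T) (ha0 : a ≠ 0) : Ideal.span {a} ∈ coprimeIdeals K m :=
  ⟨by simpa using ha0, isCoprime_span_of_rayGen ha⟩

/-- A nonzero ideal coprime to `m` contains a nonzero ray generator. -/
theorem exists_rayGen_mem (m : Ideal (𝓞 K))
    (T : Set {w : InfinitePlace K // w.IsReal}) {I : Ideal (𝓞 K)} (hI0 : I ≠ ⊥)
    (hI : IsCoprime I m) : ∃ a ∈ rayGen K m T, a ≠ 0 ∧ a ∈ I := by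
  classical
  by_cases hm : m = ⊥
  · have hI' : I = ⊤ := by
      have h := Ideal.isCoprime_iff_sup_eq.mp hI
      rwa [hm, sup_bot_eq] at h
    rw [hI']
    exact ⟨1, one_mem_rayGen m T, one_ne_zero, Submodule.mem_top⟩
  obtain ⟨x, hx, y, hy, hxy⟩ := Ideal.isCoprime_iff_exists.mp hI
  have hIm : I * m ≠ ⊥ := mul_ne_zero hI0 hm
  set N : ℕ := absNorm (I * m) with hN
  have hN0 : N ≠ 0 := Ideal.absNorm_eq_zero_iff.not.mpr hIm
  have hNmem : (N : 𝓞 K) ∈ I * m := Ideal.absNorm_mem (I * m)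
  have hNI : (N : 𝓞 K) ∈ I := Ideal.mul_le_left hNmem
  have hNm : (N : 𝓞 K) ∈ m := Ideal.mul_le_right hNmem
  have hn0 : (N : 𝓞 K) ≠ 0 := by exact_mod_cast hN0
  set B : ℝ := ∑ w : {w : InfinitePlace K // w.IsReal},
    |InfinitePlace.embedding_of_isReal w.2 (x : K)| with hB
  set k₀ : ℕ := ⌈B⌉₊ + 1 with hk₀
  obtain ⟨k, hk, hne⟩ : ∃ k : ℕ, k₀ ≤ k ∧ x + (k : 𝓞 K) * (N : 𝓞 K) ≠ 0 := by
    by_cases h : x + (k₀ : 𝓞 K) * (N : 𝓞 K) = 0
    · refine ⟨k₀ + 1, by omega, ?_⟩
      have e : x + ((k₀ + 1 : ℕ) : 𝓞 K) * (N : 𝓞 K) = (N : 𝓞 K) := by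
        push_cast
        linear_combination h
      rw [e]
      exact hn0
    · exact ⟨k₀, le_rfl, h⟩
  refine ⟨x + (k : 𝓞 K) * (N : 𝓞 K), ⟨?_, fun w _ => ?_⟩, hne, ?_⟩
  · have e : x + (k : 𝓞 K) * (N : 𝓞 K) - 1 = (k : 𝓞 K) * (N : 𝓞 K) - y := by
      linear_combination hxy
    rw [e]
    exact m.sub_mem (m.mul_mem_left _ hNm) hy
  · have e : ((x + (k : 𝓞 K) * (N : 𝓞 K) : 𝓞 K) : K) = (x : K) + ((k * N : ℕ) : K) := by
      push_cast
      ring
    rw [e, map_add, map_natCast]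
    have h1 : |InfinitePlace.embedding_of_isReal w.2 (x : K)| ≤ B := by
      rw [hB]
      exact Finset.single_le_sum (f := fun w : {w : InfinitePlace K // w.IsReal} =>
        |InfinitePlace.embedding_of_isReal w.2 (x : K)|) (fun _ _ => abs_nonneg _)
        (Finset.mem_univ w)
    have h2 : B < (k₀ : ℝ) := by
      rw [hk₀]
      push_cast
      linarith [Nat.le_ceil B]
    have h3 : (k₀ : ℝ) ≤ ((k * N : ℕ) : ℝ) := by
      have : k₀ ≤ k * N := le_trans hk (Nat.le_mul_of_pos_right k (Nat.pos_of_ne_zero hN0))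
      exact_mod_cast this
    have h4 := neg_abs_le (InfinitePlace.embedding_of_isReal w.2 (x : K))
    linarith
  · exact I.add_mem hx (I.mul_mem_left _ hNI)

variable (K)

/-- The ray congruence on the ideals coprime to `m`. -/
def rayCon (m : Ideal (𝓞 K)) (T : Set {w : InfinitePlace K // w.IsReal}) :
    Con (coprimeIdeals K m) where
  r I I' := ∃ a ∈ rayGen K m T, ∃ a' ∈ rayGen K m T, a ≠ 0 ∧
    Ideal.span {a} * (I : Ideal (𝓞 K)) = Ideal.span {a'} * (I' : Ideal (𝓞 K))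
  iseqv := by
    refine ⟨fun I => ⟨1, one_mem_rayGen m T, 1, one_mem_rayGen m T, one_ne_zero, rfl⟩, ?_, ?_⟩
    · rintro I I' ⟨a, ha, a', ha', ha0, h⟩
      refine ⟨a', ha', a, ha, ?_, h.symm⟩
      rintro rfl
      have h1 : Ideal.span {a} * (I : Ideal (𝓞 K)) ≠ 0 :=
        mul_ne_zero (by simpa using ha0) I.2.1
      rw [h] at h1
      simp at h1
    · rintro I I' I'' ⟨a, ha, a', ha', ha0, h⟩ ⟨b, hb, b', hb', hb0, h'⟩
      refine ⟨a * b, rayGen_mul ha hb, a' * b', rayGen_mul ha' hb', mul_ne_zero ha0 hb0, ?_⟩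
      rw [← Ideal.span_singleton_mul_span_singleton, ← Ideal.span_singleton_mul_span_singleton]
      calc Ideal.span {a} * Ideal.span {b} * (I : Ideal (𝓞 K))
          = Ideal.span {b} * (Ideal.span {a} * (I : Ideal (𝓞 K))) := by ring
        _ = Ideal.span {a'} * (Ideal.span {b} * (I' : Ideal (𝓞 K))) := by rw [h]; ring
        _ = Ideal.span {a'} * Ideal.span {b'} * (I'' : Ideal (𝓞 K)) := by rw [h']; ring
  mul' := by
    rintro I I' J J' ⟨a, ha, a', ha', ha0, h⟩ ⟨b, hb, b', hb', hb0, h'⟩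
    refine ⟨a * b, rayGen_mul ha hb, a' * b', rayGen_mul ha' hb', mul_ne_zero ha0 hb0, ?_⟩
    rw [← Ideal.span_singleton_mul_span_singleton, ← Ideal.span_singleton_mul_span_singleton]
    show Ideal.span {a} * Ideal.span {b} * ((I : Ideal (𝓞 K)) * (J : Ideal (𝓞 K)))
      = Ideal.span {a'} * Ideal.span {b'} * ((I' : Ideal (𝓞 K)) * (J' : Ideal (𝓞 K)))
    calc Ideal.span {a} * Ideal.span {b} * ((I : Ideal (𝓞 K)) * (J : Ideal (𝓞 K)))
        = (Ideal.span {a} * (I : Ideal (𝓞 K))) * (Ideal.span {b} * (J : Ideal (𝓞 K))) := by ring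
      _ = Ideal.span {a'} * Ideal.span {b'} * ((I' : Ideal (𝓞 K)) * (J' : Ideal (𝓞 K))) := by
          rw [h, h']; ring

/-- The ray class group modulo `m` and the real places in `T`. -/
def RayClassGroup (m : Ideal (𝓞 K)) (T : Set {w : InfinitePlace K // w.IsReal}) : Type _ :=
  (rayCon K m T).Quotient

variable {K}

/-- Every nonzero ideal coprime to `m` has an "inverse" modulo the ray generators. -/
theorem exists_mul_eq_span (m : Ideal (𝓞 K))
    (T : Set {w : InfinitePlace K // w.IsReal}) (I : coprimeIdeals K m) :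
    ∃ J : coprimeIdeals K m, ∃ a ∈ rayGen K m T, a ≠ 0 ∧
      (I : Ideal (𝓞 K)) * (J : Ideal (𝓞 K)) = Ideal.span {a} := by
  obtain ⟨a, ha, ha0, haI⟩ := exists_rayGen_mem m T I.2.1 I.2.2
  have hle : Ideal.span {a} ≤ (I : Ideal (𝓞 K)) := (Ideal.span_singleton_le_iff_mem _).mpr haI
  obtain ⟨J, hJ⟩ := Ideal.dvd_iff_le.mpr hle
  have hspan0 : Ideal.span {a} ≠ (⊥ : Ideal (𝓞 K)) := by simpa using ha0
  have hJ0 : J ≠ ⊥ := by
    rintro rfl
    apply hspan0
    rw [hJ]
    simp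
  have hJc : IsCoprime J m := by
    have h := isCoprime_span_of_rayGen ha
    rw [hJ] at h
    exact IsCoprime.of_mul_left_right h
  exact ⟨⟨J, hJ0, hJc⟩, a, ha, ha0, hJ.symm⟩

theorem rayCon_span_one {m : Ideal (𝓞 K)} {T : Set {w : InfinitePlace K // w.IsReal}}
    {a : 𝓞 K} (ha : a ∈ rayGen K m T) (ha0 : a ≠ 0) :
    rayCon K m T ⟨Ideal.span {a}, span_mem_coprimeIdeals ha ha0⟩ 1 := by
  refine ⟨1, one_mem_rayGen m T, a, ha, one_ne_zero, ?_⟩
  show Ideal.span {1} * Ideal.span {a} = Ideal.span {a} * (1 : Ideal (𝓞 K))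
  rw [Ideal.span_singleton_one, Ideal.one_eq_top, Ideal.top_mul, Ideal.mul_top]

theorem isUnit_rayCon_quotient (m : Ideal (𝓞 K))
    (T : Set {w : InfinitePlace K // w.IsReal}) (q : (rayCon K m T).Quotient) : IsUnit q := by
  induction q using Con.induction_on with
  | H I =>
    obtain ⟨J, a, ha, ha0, h⟩ := exists_mul_eq_span m T I
    rw [isUnit_iff_exists_inv]
    refine ⟨(J : (rayCon K m T).Quotient), ?_⟩
    rw [← Con.coe_mul, ← Con.coe_one, Con.eq]
    have e : I * J = ⟨Ideal.span {a}, span_mem_coprimeIdeals ha ha0⟩ := Subtype.ext h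
    rw [e]
    exact rayCon_span_one ha ha0

/-! ### Finiteness -/

/-- Normalisation: two ideals in the same ordinary class, the second one coprime to `m`, are
related by `(a') I = (b') I₀` with `a'` a ray generator. -/
theorem exists_rayGen_mul_eq (m : Ideal (𝓞 K)) (T : Set {w : InfinitePlace K // w.IsReal})
    {I I₀ : Ideal (𝓞 K)} (hI₀0 : I₀ ≠ ⊥) (hI₀ : IsCoprime I₀ m) {a b : 𝓞 K} (ha : a ≠ 0)
    (h : Ideal.span {a} * I = Ideal.span {b} * I₀) :
    ∃ a' ∈ rayGen K m T, a' ≠ 0 ∧ ∃ b' : 𝓞 K, Ideal.span {a'} * I = Ideal.span {b'} * I₀ := by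
  obtain ⟨a', ha', ha'0, ha'I⟩ := exists_rayGen_mem m T hI₀0 hI₀
  have h1 : b * a' ∈ Ideal.span {a} * I := by
    rw [h]
    exact Ideal.mul_mem_mul (Ideal.mem_span_singleton_self b) ha'I
  obtain ⟨b', _, hb'⟩ := Ideal.mem_span_singleton_mul.mp h1
  refine ⟨a', ha', ha'0, b', ?_⟩
  have hspan0 : Ideal.span {a} ≠ (0 : Ideal (𝓞 K)) := by simpa using ha
  apply mul_left_cancel₀ hspan0
  calc Ideal.span {a} * (Ideal.span {a'} * I) = Ideal.span {a'} * (Ideal.span {a} * I) := by ring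
    _ = Ideal.span {a'} * (Ideal.span {b} * I₀) := by rw [h]
    _ = Ideal.span {b * a'} * I₀ := by
        rw [← mul_assoc, Ideal.span_singleton_mul_span_singleton, mul_comm a' b]
    _ = Ideal.span {a * b'} * I₀ := by rw [hb']
    _ = Ideal.span {a} * (Ideal.span {b'} * I₀) := by
        rw [← Ideal.span_singleton_mul_span_singleton, mul_assoc]

theorem mul_pos_of_sign_eq {x y : ℝ} (hx : x ≠ 0) (h : SignType.sign x = SignType.sign y) :
    0 < x * y := by
  rcases lt_or_gt_of_ne hx with hx' | hx'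
  · rw [sign_neg hx'] at h
    have hy : y < 0 := sign_eq_neg_one_iff.mp h.symm
    exact mul_pos_of_neg_of_neg hx' hy
  · rw [sign_pos hx'] at h
    have hy : 0 < y := sign_eq_one_iff.mp h.symm
    exact mul_pos hx' hy

/-- Two ideals related to the same ideal `I₀` by multipliers of the same type (residue class
modulo `m` and signs at `T`) are ray-equivalent. -/
theorem rayCon_of_rayTy_eq {m : Ideal (𝓞 K)} (hm : m ≠ ⊥)
    {T : Set {w : InfinitePlace K // w.IsReal}} {I I' : coprimeIdeals K m} {I₀ : Ideal (𝓞 K)}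
    {a b a' b' : 𝓞 K} (ha : a ∈ rayGen K m T) (ha0 : a ≠ 0) (ha' : a' ∈ rayGen K m T)
    (ha'0 : a' ≠ 0)
    (h : Ideal.span {a} * (I : Ideal (𝓞 K)) = Ideal.span {b} * I₀)
    (h' : Ideal.span {a'} * (I' : Ideal (𝓞 K)) = Ideal.span {b'} * I₀)
    (hty : rayTy K m T b = rayTy K m T b') : rayCon K m T I I' := by
  have hb0 : b ≠ 0 := by
    rintro rfl
    have h1 : Ideal.span {a} * (I : Ideal (𝓞 K)) ≠ 0 := mul_ne_zero (by simpa using ha0) I.2.1
    rw [h] at h1
    simp at h1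
  have hb'0 : b' ≠ 0 := by
    rintro rfl
    have h1 : Ideal.span {a'} * (I' : Ideal (𝓞 K)) ≠ 0 :=
      mul_ne_zero (by simpa using ha'0) I'.2.1
    rw [h'] at h1
    simp at h1
  have hbc : IsCoprime (Ideal.span {b}) m := by
    have h1 : IsCoprime (Ideal.span {a} * (I : Ideal (𝓞 K))) m :=
      IsCoprime.mul_left (isCoprime_span_of_rayGen ha) I.2.2
    rw [h] at h1
    exact IsCoprime.of_mul_left_left h1
  obtain ⟨x, hx, y, hy, hxy⟩ := Ideal.isCoprime_iff_exists.mp hbc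
  obtain ⟨d, rfl⟩ := Ideal.mem_span_singleton'.mp hx
  have hdb : d * b - 1 ∈ m := by
    have e : d * b - 1 = -y := by linear_combination hxy
    rw [e]
    exact m.neg_mem hy
  set N : ℕ := absNorm m with hN
  have hN0 : N ≠ 0 := Ideal.absNorm_eq_zero_iff.not.mpr hm
  have hNm : (N : 𝓞 K) ∈ m := Ideal.absNorm_mem m
  have hn0 : (N : 𝓞 K) ≠ 0 := by exact_mod_cast hN0
  obtain ⟨k, hk1, hkne⟩ : ∃ k : ℕ, 1 ≤ k ∧ d ^ 2 + (k : 𝓞 K) * (N : 𝓞 K) ^ 2 ≠ 0 := by
    by_cases h1 : d ^ 2 + ((1 : ℕ) : 𝓞 K) * (N : 𝓞 K) ^ 2 = 0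
    · refine ⟨2, by norm_num, ?_⟩
      have e : d ^ 2 + ((2 : ℕ) : 𝓞 K) * (N : 𝓞 K) ^ 2 = (N : 𝓞 K) ^ 2 := by
        push_cast at h1 ⊢
        linear_combination h1
      rw [e]
      exact pow_ne_zero 2 hn0
    · exact ⟨1, le_rfl, h1⟩
  have hbb' : b - b' ∈ m := by
    have h1 : Ideal.Quotient.mk m b = Ideal.Quotient.mk m b' := congrArg Prod.fst hty
    exact Ideal.Quotient.eq.mp h1
  have hsgn : ∀ w : T, SignType.sign ((intEmb K b).1 w.1)
      = SignType.sign ((intEmb K b').1 w.1) := fun w => congrFun (congrArg Prod.snd hty) w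
  set c : 𝓞 K := b * (d ^ 2 + (k : 𝓞 K) * (N : 𝓞 K) ^ 2) with hc
  have hc0 : c ≠ 0 := mul_ne_zero hb0 hkne
  -- positivity of the factor `d ^ 2 + k * N ^ 2` at the real places
  have hfac : ∀ w : {w : InfinitePlace K // w.IsReal},
      0 < (intEmb K (d ^ 2 + (k : 𝓞 K) * (N : 𝓞 K) ^ 2)).1 w := by
    intro w
    have e : (intEmb K (d ^ 2 + (k : 𝓞 K) * (N : 𝓞 K) ^ 2)).1 w
        = ((intEmb K d).1 w) ^ 2 + (k : ℝ) * (N : ℝ) ^ 2 := by
      simp [intEmb_fst]
    rw [e]
    have h1 : (0 : ℝ) < (k : ℝ) * (N : ℝ) ^ 2 := by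
      have : (0 : ℝ) < (N : ℝ) := by exact_mod_cast Nat.pos_of_ne_zero hN0
      have : (1 : ℝ) ≤ (k : ℝ) := by exact_mod_cast hk1
      positivity
    positivity
  have hemb0 : ∀ (z : 𝓞 K), z ≠ 0 → ∀ w : {w : InfinitePlace K // w.IsReal},
      (intEmb K z).1 w ≠ 0 := by
    intro z hz w
    rw [intEmb_fst]
    intro h0
    have h1 : (z : K) = 0 := (map_eq_zero _).mp h0
    exact hz (by exact_mod_cast h1)
  refine ⟨c * a * b', ⟨?_, fun w hw => ?_⟩, c * a' * b, ⟨?_, fun w hw => ?_⟩,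
    mul_ne_zero (mul_ne_zero hc0 ha0) hb'0, ?_⟩
  · have e : c * a * b' - 1 = (a - 1) * (d * b) ^ 2 + (d * b - 1) * (d * b + 1)
        - (b - b') * (b * d ^ 2 * a) + (N : 𝓞 K) * ((k : 𝓞 K) * (N : 𝓞 K) * b * a * b') := by
      rw [hc]
      ring
    rw [e]
    exact m.add_mem (m.sub_mem (m.add_mem (m.mul_mem_right _ ha.1) (m.mul_mem_right _ hdb))
      (m.mul_mem_right _ hbb')) (m.mul_mem_right _ hNm)
  · have h1 := ha.2 w hw
    rw [← intEmb_fst] at h1 ⊢
    have h2 := mul_pos_of_sign_eq (hemb0 b hb0 w) (hsgn ⟨w, hw⟩)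
    have h3 := hfac w
    have e : (intEmb K (c * a * b')).1 w = ((intEmb K b).1 w * (intEmb K b').1 w)
        * (intEmb K (d ^ 2 + (k : 𝓞 K) * (N : 𝓞 K) ^ 2)).1 w * (intEmb K a).1 w := by
      rw [hc, intEmb_fst_mul, intEmb_fst_mul, intEmb_fst_mul]
      ring
    rw [e]
    positivity
  · have e : c * a' * b - 1 = (a' - 1) * (d * b) ^ 2 + (d * b - 1) * (d * b + 1)
        + (N : 𝓞 K) * ((k : 𝓞 K) * (N : 𝓞 K) * b ^ 2 * a') := by
      rw [hc]
      ring
    rw [e]
    exact m.add_mem (m.add_mem (m.mul_mem_right _ ha'.1) (m.mul_mem_right _ hdb))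
      (m.mul_mem_right _ hNm)
  · have h1 := ha'.2 w hw
    rw [← intEmb_fst] at h1 ⊢
    have h2 : 0 < (intEmb K b).1 w * (intEmb K b).1 w :=
      mul_self_pos.mpr (hemb0 b hb0 w)
    have h3 := hfac w
    have e : (intEmb K (c * a' * b)).1 w = ((intEmb K b).1 w * (intEmb K b).1 w)
        * (intEmb K (d ^ 2 + (k : 𝓞 K) * (N : 𝓞 K) ^ 2)).1 w * (intEmb K a').1 w := by
      rw [hc, intEmb_fst_mul, intEmb_fst_mul, intEmb_fst_mul]
      ring
    rw [e]
    positivity
  · have e1 : c * a * b' = (c * b') * a := by ring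
    have e2 : c * a' * b = (c * b) * a' := by ring
    calc Ideal.span {c * a * b'} * (I : Ideal (𝓞 K))
        = Ideal.span {c * b'} * (Ideal.span {a} * (I : Ideal (𝓞 K))) := by
          rw [e1, ← Ideal.span_singleton_mul_span_singleton (c * b') a,
            mul_assoc (Ideal.span {c * b'})]
      _ = Ideal.span {c * b'} * (Ideal.span {b} * I₀) := by rw [h]
      _ = Ideal.span {c * b} * (Ideal.span {b'} * I₀) := by
          rw [← mul_assoc, ← mul_assoc, Ideal.span_singleton_mul_span_singleton,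
            Ideal.span_singleton_mul_span_singleton, mul_right_comm c b' b]
      _ = Ideal.span {c * b} * (Ideal.span {a'} * (I' : Ideal (𝓞 K))) := by rw [h']
      _ = Ideal.span {c * a' * b} * (I' : Ideal (𝓞 K)) := by
          rw [e2, ← Ideal.span_singleton_mul_span_singleton (c * b) a',
            mul_assoc (Ideal.span {c * b})]

variable (K) in
/-- The ordinary ideal class of an ideal coprime to `m`. -/
noncomputable def copClass (m : Ideal (𝓞 K)) (I : coprimeIdeals K m) : ClassGroup (𝓞 K) :=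
  ClassGroup.mk0 ⟨I.1, mem_nonZeroDivisors_of_ne_zero I.2.1⟩

theorem exists_rayTy_data (m : Ideal (𝓞 K)) (T : Set {w : InfinitePlace K // w.IsReal}) :
    ∃ (β : coprimeIdeals K m → 𝓞 K) (I₀ : ClassGroup (𝓞 K) → coprimeIdeals K m),
      ∀ I : coprimeIdeals K m, ∃ a ∈ rayGen K m T, a ≠ 0 ∧
        Ideal.span {a} * (I : Ideal (𝓞 K))
          = Ideal.span {β I} * ((I₀ (copClass K m I) : coprimeIdeals K m) : Ideal (𝓞 K)) := by
  classical
  let I₀ : ClassGroup (𝓞 K) → coprimeIdeals K m := fun C =>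
    if h : ∃ I : coprimeIdeals K m, copClass K m I = C then h.choose else 1
  have hI₀ : ∀ I : coprimeIdeals K m, copClass K m (I₀ (copClass K m I)) = copClass K m I := by
    intro I
    have h : ∃ I' : coprimeIdeals K m, copClass K m I' = copClass K m I := ⟨I, rfl⟩
    show copClass K m (if h : ∃ I' : coprimeIdeals K m, copClass K m I' = copClass K m I
      then h.choose else 1) = _
    rw [dif_pos h]
    exact h.choose_spec
  have key : ∀ I : coprimeIdeals K m, ∃ b : 𝓞 K, ∃ a ∈ rayGen K m T, a ≠ 0 ∧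
      Ideal.span {a} * (I : Ideal (𝓞 K))
        = Ideal.span {b} * ((I₀ (copClass K m I) : coprimeIdeals K m) : Ideal (𝓞 K)) := by
    intro I
    have h1 := (hI₀ I).symm
    unfold copClass at h1
    rw [ClassGroup.mk0_eq_mk0_iff] at h1
    obtain ⟨x, y, hx, _, hxy⟩ := h1
    obtain ⟨a', ha', ha'0, b', hb'⟩ := exists_rayGen_mul_eq m T (I₀ (copClass K m I)).2.1
      (I₀ (copClass K m I)).2.2 hx hxy
    exact ⟨b', a', ha', ha'0, hb'⟩
  choose β hβ using key
  exact ⟨β, I₀, hβ⟩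

theorem finite_rayCon_quotient (m : Ideal (𝓞 K)) (T : Set {w : InfinitePlace K // w.IsReal}) :
    Finite (rayCon K m T).Quotient := by
  classical
  by_cases hm : m = ⊥
  · have hone : ∀ I : coprimeIdeals K m, I = 1 := by
      rintro ⟨I, hI0, hIc⟩
      have h := Ideal.isCoprime_iff_sup_eq.mp hIc
      rw [hm, sup_bot_eq] at h
      exact Subtype.ext (h.trans Ideal.one_eq_top.symm)
    have : Subsingleton (rayCon K m T).Quotient := by
      refine ⟨fun q q' => ?_⟩
      induction q using Con.induction_on with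
      | H I =>
        induction q' using Con.induction_on with
        | H I' => rw [hone I, hone I']
    exact Finite.of_subsingleton
  · obtain ⟨β, I₀, h⟩ := exists_rayTy_data m T
    have : Finite (𝓞 K ⧸ m) := Ideal.finiteQuotientOfFreeOfNeBot m hm
    let sec : (rayCon K m T).Quotient → coprimeIdeals K m :=
      Function.surjInv (Con.mk'_surjective (c := rayCon K m T))
    have hsec : ∀ q, ((sec q : coprimeIdeals K m) : (rayCon K m T).Quotient) = q :=
      fun q => Function.surjInv_eq (Con.mk'_surjective (c := rayCon K m T)) q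
    refine Finite.of_injective
      (fun q => (copClass K m (sec q), rayTy K m T (β (sec q)))) ?_
    intro q q' hqq
    have hC : copClass K m (sec q) = copClass K m (sec q') := congrArg Prod.fst hqq
    have hty : rayTy K m T (β (sec q)) = rayTy K m T (β (sec q')) := congrArg Prod.snd hqq
    obtain ⟨a, ha, ha0, e⟩ := h (sec q)
    obtain ⟨a', ha', ha'0, e'⟩ := h (sec q')
    rw [← hC] at e'
    rw [← hsec q, ← hsec q', Con.eq]
    exact rayCon_of_rayTy_eq hm ha ha0 ha' ha'0 e e' hty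

/-! ### The group structure, the class map, the universal property -/

noncomputable instance instCommGroupRayClassGroup (m : Ideal (𝓞 K))
    (T : Set {w : InfinitePlace K // w.IsReal}) : CommGroup (RayClassGroup K m T) :=
  @commGroupOfIsUnit _ (Con.commMonoid (rayCon K m T)) (isUnit_rayCon_quotient m T)

instance instFiniteRayClassGroup (m : Ideal (𝓞 K))
    (T : Set {w : InfinitePlace K // w.IsReal}) : Finite (RayClassGroup K m T) :=
  finite_rayCon_quotient m T

variable (K) in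
/-- The ray class of a nonzero ideal coprime to `m`. -/
noncomputable def rayMk (m : Ideal (𝓞 K)) (T : Set {w : InfinitePlace K // w.IsReal}) :
    coprimeIdeals K m →* RayClassGroup K m T :=
  (rayCon K m T).mk'

theorem rayMk_eq_iff {m : Ideal (𝓞 K)} {T : Set {w : InfinitePlace K // w.IsReal}}
    {I I' : coprimeIdeals K m} :
    rayMk K m T I = rayMk K m T I' ↔ ∃ a ∈ rayGen K m T, ∃ a' ∈ rayGen K m T, a ≠ 0 ∧
      Ideal.span {a} * (I : Ideal (𝓞 K)) = Ideal.span {a'} * (I' : Ideal (𝓞 K)) :=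
  Con.eq (rayCon K m T)

theorem rayMk_surjective (m : Ideal (𝓞 K)) (T : Set {w : InfinitePlace K // w.IsReal}) :
    Function.Surjective (rayMk K m T) :=
  Con.mk'_surjective

theorem rayMk_span {m : Ideal (𝓞 K)} {T : Set {w : InfinitePlace K // w.IsReal}}
    {a : 𝓞 K} (ha : a ∈ rayGen K m T) (ha0 : a ≠ 0) :
    rayMk K m T ⟨Ideal.span {a}, span_mem_coprimeIdeals ha ha0⟩ = 1 := by
  rw [← map_one (rayMk K m T)]
  exact (Con.eq (rayCon K m T)).mpr (rayCon_span_one ha ha0)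

/-- **Universal property of the ray class group.** -/
noncomputable def rayLift {m : Ideal (𝓞 K)} {T : Set {w : InfinitePlace K // w.IsReal}}
    {G : Type*} [Monoid G] (f : coprimeIdeals K m →* G)
    (hf : ∀ (a : 𝓞 K) (ha : a ∈ rayGen K m T) (ha0 : a ≠ 0),
      f ⟨Ideal.span {a}, span_mem_coprimeIdeals ha ha0⟩ = 1) :
    RayClassGroup K m T →* G :=
  (rayCon K m T).lift f (by
    rintro I I' ⟨a, ha, a', ha', ha0, h⟩
    have ha'0 : a' ≠ 0 := by
      rintro rfl
      have h1 : Ideal.span {a} * (I : Ideal (𝓞 K)) ≠ 0 :=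
        mul_ne_zero (by simpa using ha0) I.2.1
      rw [h] at h1
      simp at h1
    have e : (⟨Ideal.span {a}, span_mem_coprimeIdeals ha ha0⟩ : coprimeIdeals K m) * I
        = ⟨Ideal.span {a'}, span_mem_coprimeIdeals ha' ha'0⟩ * I' := Subtype.ext h
    have h2 := congrArg f e
    rw [map_mul, map_mul, hf a ha ha0, hf a' ha' ha'0, one_mul, one_mul] at h2
    exact h2)

@[simp]
theorem rayLift_rayMk {m : Ideal (𝓞 K)} {T : Set {w : InfinitePlace K // w.IsReal}}
    {G : Type*} [Monoid G] (f : coprimeIdeals K m →* G)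
    (hf : ∀ (a : 𝓞 K) (ha : a ∈ rayGen K m T) (ha0 : a ≠ 0),
      f ⟨Ideal.span {a}, span_mem_coprimeIdeals ha ha0⟩ = 1) (I : coprimeIdeals K m) :
    rayLift f hf (rayMk K m T I) = f I :=
  Con.lift_mk' _ I

theorem rayLift_surjective {m : Ideal (𝓞 K)} {T : Set {w : InfinitePlace K // w.IsReal}}
    {G : Type*} [Monoid G] (f : coprimeIdeals K m →* G)
    (hf : ∀ (a : 𝓞 K) (ha : a ∈ rayGen K m T) (ha0 : a ≠ 0),
      f ⟨Ideal.span {a}, span_mem_coprimeIdeals ha ha0⟩ = 1) (hsurj : Function.Surjective f) :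
    Function.Surjective (rayLift f hf) := by
  intro g
  obtain ⟨I, rfl⟩ := hsurj g
  exact ⟨rayMk K m T I, rayLift_rayMk f hf I⟩

/-- Any monoid receiving a surjective monoid hom from the ideals coprime to `m` which kills
the principal ideals generated by ray generators is finite. -/
theorem finite_of_rayHom {m : Ideal (𝓞 K)} {T : Set {w : InfinitePlace K // w.IsReal}}
    {G : Type*} [Monoid G] (f : coprimeIdeals K m →* G)
    (hf : ∀ (a : 𝓞 K) (ha : a ∈ rayGen K m T) (ha0 : a ≠ 0),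
      f ⟨Ideal.span {a}, span_mem_coprimeIdeals ha ha0⟩ = 1) (hsurj : Function.Surjective f) :
    Finite G :=
  Finite.of_surjective (rayLift f hf) (rayLift_surjective f hf hsurj)

/-! ### The fibres of the class map and their partial zeta functions -/

/-- An ideal coprime to `m` as an element of `(Ideal (𝓞 K))⁰`. -/
def copToNz {m : Ideal (𝓞 K)} (I : coprimeIdeals K m) : (Ideal (𝓞 K))⁰ :=
  ⟨I.1, mem_nonZeroDivisors_of_ne_zero I.2.1⟩

@[simp]
theorem coe_copToNz {m : Ideal (𝓞 K)} (I : coprimeIdeals K m) :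
    ((copToNz I : (Ideal (𝓞 K))⁰) : Ideal (𝓞 K)) = I.1 := rfl

theorem isCoprime_of_mem_rayClassSet {m : Ideal (𝓞 K)}
    {T : Set {w : InfinitePlace K // w.IsReal}} {J I : (Ideal (𝓞 K))⁰}
    (h : I ∈ rayClassSet K m T J) : IsCoprime (I : Ideal (𝓞 K)) m := by
  obtain ⟨a, ha, e⟩ := h
  have h1 := isCoprime_span_of_rayGen ha
  rw [← e] at h1
  exact IsCoprime.of_mul_left_right h1

/-- The fibre of the class map over `q` is a set `rayClassSet K m T J`. -/
theorem exists_rayClassSet_eq (m : Ideal (𝓞 K)) (T : Set {w : InfinitePlace K // w.IsReal})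
    (q : RayClassGroup K m T) :
    ∃ J : (Ideal (𝓞 K))⁰, IsCoprime (J : Ideal (𝓞 K)) m ∧
      ∀ I : coprimeIdeals K m, rayMk K m T I = q ↔ copToNz I ∈ rayClassSet K m T J := by
  obtain ⟨I₁, rfl⟩ := rayMk_surjective m T q
  obtain ⟨J, a₀, ha₀, ha₀0, hJ⟩ := exists_mul_eq_span m T I₁
  refine ⟨copToNz J, J.2.2, fun I => ⟨fun h => ?_, fun h => ?_⟩⟩
  · obtain ⟨b, hb, b', hb', hb0, e⟩ := rayMk_eq_iff.mp h
    have hspanb : Ideal.span {b} ≠ (0 : Ideal (𝓞 K)) := by simpa using hb0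
    have e1 : Ideal.span {b} * ((J : Ideal (𝓞 K)) * (I : Ideal (𝓞 K))) = Ideal.span {b' * a₀} := by
      calc Ideal.span {b} * ((J : Ideal (𝓞 K)) * (I : Ideal (𝓞 K)))
          = (J : Ideal (𝓞 K)) * (Ideal.span {b} * (I : Ideal (𝓞 K))) := by ring
        _ = Ideal.span {b'} * ((I₁ : Ideal (𝓞 K)) * (J : Ideal (𝓞 K))) := by rw [e]; ring
        _ = Ideal.span {b' * a₀} := by rw [hJ, Ideal.span_singleton_mul_span_singleton]
    have hmem : b' * a₀ ∈ Ideal.span {b} * ((J : Ideal (𝓞 K)) * (I : Ideal (𝓞 K))) := by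
      rw [e1]
      exact Ideal.mem_span_singleton_self _
    obtain ⟨z, _, hz⟩ := Ideal.mem_span_singleton_mul.mp hmem
    refine ⟨z, rayGen_of_mul (x := b) ?_ hb, ?_⟩
    · rw [mul_comm, hz]
      exact rayGen_mul hb' ha₀
    · show (J : Ideal (𝓞 K)) * (I : Ideal (𝓞 K)) = Ideal.span {z}
      apply mul_left_cancel₀ hspanb
      rw [e1, Ideal.span_singleton_mul_span_singleton, hz]
  · obtain ⟨a, ha, e⟩ := h
    have e' : (J : Ideal (𝓞 K)) * (I : Ideal (𝓞 K)) = Ideal.span {a} := e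
    refine rayMk_eq_iff.mpr ⟨a₀, ha₀, a, ha, ha₀0, ?_⟩
    rw [← hJ, ← e']
    ring

variable (K) in
/-- The partial zeta function of a ray class. -/
noncomputable def rayPartZeta (m : Ideal (𝓞 K)) (T : Set {w : InfinitePlace K // w.IsReal})
    (q : RayClassGroup K m T) (s : ℝ) : ℝ :=
  ∑' I : {I : coprimeIdeals K m // rayMk K m T I = q},
    (absNorm (I.1 : Ideal (𝓞 K)) : ℝ) ^ (-s)

/-- The fibre of the class map as a `rayClassSet`. -/
noncomputable def rayFiberEquiv {m : Ideal (𝓞 K)} {T : Set {w : InfinitePlace K // w.IsReal}}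
    (q : RayClassGroup K m T) (J : (Ideal (𝓞 K))⁰)
    (hJ : ∀ I : coprimeIdeals K m, rayMk K m T I = q ↔ copToNz I ∈ rayClassSet K m T J) :
    {I : coprimeIdeals K m // rayMk K m T I = q} ≃ rayClassSet K m T J where
  toFun I := ⟨copToNz I.1, (hJ I.1).mp I.2⟩
  invFun I := ⟨⟨I.1.1, nonZeroDivisors.ne_zero I.1.2, isCoprime_of_mem_rayClassSet I.2⟩,
    (hJ _).mpr I.2⟩
  left_inv _ := rfl
  right_inv _ := rfl

theorem rayPartZeta_eq_rayZeta {m : Ideal (𝓞 K)} {T : Set {w : InfinitePlace K // w.IsReal}}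
    (q : RayClassGroup K m T) (J : (Ideal (𝓞 K))⁰)
    (hJ : ∀ I : coprimeIdeals K m, rayMk K m T I = q ↔ copToNz I ∈ rayClassSet K m T J)
    (s : ℝ) : rayPartZeta K m T q s = rayZeta K m T J s := by
  unfold rayPartZeta rayZeta
  rw [← (rayFiberEquiv q J hJ).tsum_eq]
  rfl

/-- **The partial zeta functions of two ray classes differ by a bounded function on `(1, 2]`.** -/
theorem rayPartZeta_sub_bounded {m : Ideal (𝓞 K)} (hm : m ≠ ⊥)
    (T : Set {w : InfinitePlace K // w.IsReal}) (q q' : RayClassGroup K m T) :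
    ∃ B : ℝ, ∀ s : ℝ, 1 < s → s ≤ 2 →
      |rayPartZeta K m T q s - rayPartZeta K m T q' s| ≤ B := by
  obtain ⟨J, hJc, hJ⟩ := exists_rayClassSet_eq m T q
  obtain ⟨J', hJ'c, hJ'⟩ := exists_rayClassSet_eq m T q'
  obtain ⟨B, hB⟩ := rayZeta_sub_bounded K m hm T J J' hJc hJ'c
  refine ⟨B, fun s hs1 hs2 => ?_⟩
  rw [rayPartZeta_eq_rayZeta q J hJ, rayPartZeta_eq_rayZeta q' J' hJ']
  exact hB s hs1 hs2

end Fermat.Agent.CFT.Ray
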