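import Fermat.Agent.CFT.Ray.RayGroup
import Fermat.Agent.CFT.Analytic.SecondIneq

/-!
# The universal norm index inequality ("second inequality") with modulus

`E` a number field, `m ≠ ⊥` an ideal of `𝓞 E`, `T` a set of real places,
`RayClassGroup E m T` the ray class group (`RayGroup.lean`).

* `ray_primeSum_le`: if `S` is a set of primes of `E` coprime to `m` whose ray classes lie in a
  subgroup `H`, then `[Cl_m : H] · ∑_{𝔭 ∈ S} N𝔭^(-s) ≤ log (1/(s-1)) + C` on `(1, 2]`.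
* `rayClassGroup_index_le_finrank`: for a finite extension `M/E`, a subgroup `H` of the ray class
  group containing the classes of all primes of `E` coprime to `m` lying below a prime of `M` of
  relative residue degree one has index at most `[M : E]`.
* `ray_index_le_finrank`: the same for any commutative group `G` receiving a surjective monoid
  hom from the ideals coprime to `m` that kills the principal ideals generated by ray generators
  (no finiteness assumption on `G`).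
* `ray_index_le_finrank_relNorm`: norm form, `[I^m : P_m · N(I_M^m)] ≤ [M : E]`.

The proof follows `Analytic/SecondIneq.lean`: ray class `L`-series, their Euler products
(`EulerIdeal.lean`), orthogonality of characters, boundedness of the `L`-series of nontrivial
characters (from `rayPartZeta_sub_bounded`, i.e. `Ray/RayZetaBdd.lean`) and the degree-one prime
sum of `ζ_M`.
-/

set_option autoImplicit false
set_option linter.unusedSectionVars false

namespace Fermat.Agent.CFT.Ray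

open Filter Topology NumberField IsDedekindDomain
open scoped nonZeroDivisors
open Fermat.Agent.Lib.Frob (wt pw zetaR NzIdeal)
open Fermat.Agent.CFT.SecondIneq

section RayL

variable {E : Type*} [Field E] [NumberField E] {m : Ideal (𝓞 E)}
  {T : Set {w : InfinitePlace E // w.IsReal}}

theorem mul_mem_coprimeIdeals_iff {I J : Ideal (𝓞 E)} :
    I * J ∈ coprimeIdeals E m ↔ I ∈ coprimeIdeals E m ∧ J ∈ coprimeIdeals E m := by
  constructor
  · rintro ⟨h0, hc⟩
    have hI : I ≠ ⊥ := by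
      rintro rfl
      exact h0 (by simp)
    have hJ : J ≠ ⊥ := by
      rintro rfl
      exact h0 (by simp)
    exact ⟨⟨hI, IsCoprime.of_mul_left_left hc⟩, ⟨hJ, IsCoprime.of_mul_left_right hc⟩⟩
  · rintro ⟨hI, hJ⟩
    exact (coprimeIdeals E m).mul_mem hI hJ

variable (E m T) in
open Classical in
/-- The completely multiplicative function `I ↦ ψ([I]) N(I)^(-s)` on the ideals coprime to `m`
(zero on the other ideals). -/
noncomputable def rayTerm (ψ : RayClassGroup E m T →* ℂˣ) (s : ℝ) (I : Ideal (𝓞 E)) : ℂ :=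
  if h : I ∈ coprimeIdeals E m then
    ((ψ (rayMk E m T ⟨I, h⟩) : ℂˣ) : ℂ) * ((wt E s I : ℝ) : ℂ)
  else 0

variable (E m T) in
/-- The ray class `L`-series, for real `s`. -/
noncomputable def rayL (ψ : RayClassGroup E m T →* ℂˣ) (s : ℝ) : ℂ :=
  ∑' I : Ideal (𝓞 E), rayTerm E m T ψ s I

theorem rayTerm_of_mem (ψ : RayClassGroup E m T →* ℂˣ) (s : ℝ) {I : Ideal (𝓞 E)}
    (h : I ∈ coprimeIdeals E m) :
    rayTerm E m T ψ s I = ((ψ (rayMk E m T ⟨I, h⟩) : ℂˣ) : ℂ) * ((wt E s I : ℝ) : ℂ) := by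
  unfold rayTerm
  rw [dif_pos h]

theorem rayTerm_of_notMem (ψ : RayClassGroup E m T →* ℂˣ) (s : ℝ) {I : Ideal (𝓞 E)}
    (h : I ∉ coprimeIdeals E m) : rayTerm E m T ψ s I = 0 := by
  unfold rayTerm
  rw [dif_neg h]

theorem rayTerm_bot (ψ : RayClassGroup E m T →* ℂˣ) (s : ℝ) : rayTerm E m T ψ s ⊥ = 0 :=
  rayTerm_of_notMem ψ s (fun h => h.1 rfl)

theorem rayTerm_top (ψ : RayClassGroup E m T →* ℂˣ) (s : ℝ) : rayTerm E m T ψ s ⊤ = 1 := by
  have h : (⊤ : Ideal (𝓞 E)) ∈ coprimeIdeals E m := by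
    rw [← Ideal.one_eq_top]
    exact (coprimeIdeals E m).one_mem
  rw [rayTerm_of_mem ψ s h]
  have e : (⟨⊤, h⟩ : coprimeIdeals E m) = 1 := Subtype.ext Ideal.one_eq_top.symm
  rw [e, map_one, map_one, Units.val_one, one_mul, ← Ideal.one_eq_top,
    Fermat.Agent.Lib.Frob.wt_one, Complex.ofReal_one]

theorem rayTerm_mul (ψ : RayClassGroup E m T →* ℂˣ) (s : ℝ) (I J : Ideal (𝓞 E)) :
    rayTerm E m T ψ s (I * J) = rayTerm E m T ψ s I * rayTerm E m T ψ s J := by
  by_cases hI : I ∈ coprimeIdeals E m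
  · by_cases hJ : J ∈ coprimeIdeals E m
    · have hIJ := (coprimeIdeals E m).mul_mem hI hJ
      rw [rayTerm_of_mem ψ s hIJ, rayTerm_of_mem ψ s hI, rayTerm_of_mem ψ s hJ]
      have e : (⟨I * J, hIJ⟩ : coprimeIdeals E m) = ⟨I, hI⟩ * ⟨J, hJ⟩ := rfl
      rw [e, map_mul, map_mul, Units.val_mul, Fermat.Agent.Lib.Frob.wt_mul, Complex.ofReal_mul]
      ring
    · rw [rayTerm_of_notMem ψ s hJ, mul_zero, rayTerm_of_notMem]
      exact fun h => hJ (mul_mem_coprimeIdeals_iff.mp h).2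
  · rw [rayTerm_of_notMem ψ s hI, zero_mul, rayTerm_of_notMem]
    exact fun h => hI (mul_mem_coprimeIdeals_iff.mp h).1

theorem ray_norm_unit (ψ : RayClassGroup E m T →* ℂˣ) (q : RayClassGroup E m T) :
    ‖((ψ q : ℂˣ) : ℂ)‖ = 1 := by
  classical
  exact si_norm_char ψ q

theorem norm_rayTerm_le (ψ : RayClassGroup E m T →* ℂˣ) (s : ℝ) (I : Ideal (𝓞 E)) :
    ‖rayTerm E m T ψ s I‖ ≤ wt E s I := by
  by_cases h : I ∈ coprimeIdeals E m
  · rw [rayTerm_of_mem ψ s h, norm_mul, ray_norm_unit, one_mul, Complex.norm_real,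
      Real.norm_of_nonneg (Fermat.Agent.Lib.Frob.wt_nonneg s I)]
  · rw [rayTerm_of_notMem ψ s h, norm_zero]
    exact Fermat.Agent.Lib.Frob.wt_nonneg s I

theorem summable_rayTerm (ψ : RayClassGroup E m T →* ℂˣ) {s : ℝ} (hs : 1 < s) :
    Summable (fun I : Ideal (𝓞 E) => ‖rayTerm E m T ψ s I‖) :=
  Summable.of_nonneg_of_le (fun _ => norm_nonneg _) (fun I => norm_rayTerm_le ψ s I)
    (summable_wt_all E hs)

theorem summable_ray_coprime (ψ : RayClassGroup E m T →* ℂˣ) {s : ℝ} (hs : 1 < s) :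
    Summable (fun I : coprimeIdeals E m =>
      ((ψ (rayMk E m T I) : ℂˣ) : ℂ) * ((wt E s (I : Ideal (𝓞 E)) : ℝ) : ℂ)) := by
  refine Summable.of_norm ?_
  have h := (summable_wt_all E hs).subtype (coprimeIdeals E m : Set (Ideal (𝓞 E)))
  refine h.congr fun I => ?_
  rw [norm_mul, ray_norm_unit, one_mul, Complex.norm_real,
    Real.norm_of_nonneg (Fermat.Agent.Lib.Frob.wt_nonneg s _)]
  rfl

theorem rayL_eq_tsum_coprime (ψ : RayClassGroup E m T →* ℂˣ) (s : ℝ) :
    rayL E m T ψ s = ∑' I : coprimeIdeals E m,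
      ((ψ (rayMk E m T I) : ℂˣ) : ℂ) * ((wt E s (I : Ideal (𝓞 E)) : ℝ) : ℂ) := by
  have hsupp : Function.support (fun I : Ideal (𝓞 E) => rayTerm E m T ψ s I) ⊆
      (coprimeIdeals E m : Set (Ideal (𝓞 E))) := by
    intro I hI
    by_contra h
    exact hI (rayTerm_of_notMem ψ s h)
  unfold rayL
  rw [← tsum_subtype_eq_of_support_subset hsupp]
  refine tsum_congr fun I => ?_
  exact rayTerm_of_mem ψ s I.2

theorem rayL_eq_sum [Fintype (RayClassGroup E m T)] (ψ : RayClassGroup E m T →* ℂˣ) {s : ℝ}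
    (hs : 1 < s) :
    rayL E m T ψ s = ∑ q : RayClassGroup E m T,
      ((ψ q : ℂˣ) : ℂ) * ((rayPartZeta E m T q s : ℝ) : ℂ) := by
  have hF := summable_ray_coprime ψ hs
  let G : (Σ q : RayClassGroup E m T, {I : coprimeIdeals E m // rayMk E m T I = q}) → ℂ :=
    fun x => ((ψ x.1 : ℂˣ) : ℂ) * ((wt E s (x.2.1 : Ideal (𝓞 E)) : ℝ) : ℂ)
  have hGF : ∀ x : (Σ q : RayClassGroup E m T, {I : coprimeIdeals E m // rayMk E m T I = q}),
      ((ψ (rayMk E m T ((Equiv.sigmaFiberEquiv (rayMk E m T)) x)) : ℂˣ) : ℂ) *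
        ((wt E s (((Equiv.sigmaFiberEquiv (rayMk E m T)) x : coprimeIdeals E m) :
          Ideal (𝓞 E)) : ℝ) : ℂ) = G x := by
    rintro ⟨q, I, hI⟩
    show ((ψ (rayMk E m T I) : ℂˣ) : ℂ) * ((wt E s (I : Ideal (𝓞 E)) : ℝ) : ℂ) = _
    rw [hI]
  have hG : Summable G :=
    ((Equiv.sigmaFiberEquiv (rayMk E m T)).summable_iff.mpr hF).congr hGF
  have h1 : rayL E m T ψ s = ∑' x, G x := by
    rw [rayL_eq_tsum_coprime, ← (Equiv.sigmaFiberEquiv (rayMk E m T)).tsum_eq]
    exact tsum_congr hGF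
  rw [h1, Summable.tsum_sigma' (fun c => hG.sigma_factor c) hG, tsum_fintype]
  refine Finset.sum_congr rfl fun q _ => ?_
  unfold rayPartZeta
  rw [Complex.ofReal_tsum, ← tsum_mul_left]
  rfl

theorem norm_rayL_le [Fintype (RayClassGroup E m T)] (ψ : RayClassGroup E m T →* ℂˣ)
    (hψ : ψ ≠ 1) {s : ℝ} (hs : 1 < s) :
    ‖rayL E m T ψ s‖ ≤
      ∑ q : RayClassGroup E m T, |rayPartZeta E m T q s - rayPartZeta E m T 1 s| := by
  have h0 := si_sum_group_char ψ hψ
  have h1 : rayL E m T ψ s = ∑ q : RayClassGroup E m T, ((ψ q : ℂˣ) : ℂ) *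
      (((rayPartZeta E m T q s - rayPartZeta E m T 1 s : ℝ)) : ℂ) := by
    rw [rayL_eq_sum ψ hs]
    have : ∀ q : RayClassGroup E m T, ((ψ q : ℂˣ) : ℂ) *
        (((rayPartZeta E m T q s - rayPartZeta E m T 1 s : ℝ)) : ℂ)
        = ((ψ q : ℂˣ) : ℂ) * ((rayPartZeta E m T q s : ℝ) : ℂ) -
          ((ψ q : ℂˣ) : ℂ) * ((rayPartZeta E m T 1 s : ℝ) : ℂ) := by
      intro q
      push_cast
      ring
    simp only [this]
    rw [Finset.sum_sub_distrib, ← Finset.sum_mul, h0, zero_mul, sub_zero]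
  rw [h1]
  refine (norm_sum_le _ _).trans (le_of_eq ?_)
  refine Finset.sum_congr rfl fun q _ => ?_
  rw [norm_mul, ray_norm_unit, one_mul, Complex.norm_real, Real.norm_eq_abs]

theorem norm_rayL_one_le {s : ℝ} (hs : 1 < s) :
    ‖rayL E m T (1 : RayClassGroup E m T →* ℂˣ) s‖ ≤ zetaR E s := by
  unfold rayL
  calc ‖∑' I : Ideal (𝓞 E), rayTerm E m T 1 s I‖
      ≤ ∑' I : Ideal (𝓞 E), ‖rayTerm E m T 1 s I‖ :=
        norm_tsum_le_tsum_norm (summable_rayTerm 1 hs)
    _ ≤ ∑' I : Ideal (𝓞 E), wt E s I :=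
        Summable.tsum_le_tsum (norm_rayTerm_le 1 s) (summable_rayTerm 1 hs)
          (summable_wt_all E hs)
    _ = zetaR E s := tsum_wt_all hs

theorem rayL_euler (ψ : RayClassGroup E m T →* ℂˣ) {s : ℝ} (hs : 1 < s) :
    Summable (fun v : HeightOneSpectrum (𝓞 E) =>
      -Real.log ‖1 - rayTerm E m T ψ s v.asIdeal‖) ∧
    ‖rayL E m T ψ s‖ = Real.exp (∑' v : HeightOneSpectrum (𝓞 E),
      -Real.log ‖1 - rayTerm E m T ψ s v.asIdeal‖) := by
  obtain ⟨hsum, hexp⟩ := euler_exp_log (φ := rayTerm E m T ψ s) (rayTerm_bot ψ s)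
    (rayTerm_top ψ s) (rayTerm_mul ψ s) (summable_rayTerm ψ hs)
  have hre := Complex.hasSum_re hsum.hasSum
  have hterm : ∀ v : HeightOneSpectrum (𝓞 E),
      (-Complex.log (1 - rayTerm E m T ψ s v.asIdeal)).re =
      -Real.log ‖1 - rayTerm E m T ψ s v.asIdeal‖ := by
    intro v
    rw [Complex.neg_re, Complex.log_re]
  simp only [hterm] at hre
  refine ⟨hre.summable, ?_⟩
  unfold rayL
  rw [← hexp, Complex.norm_exp, hre.tsum_eq]

/-- **Upper bound for the prime sum over a set of primes coprime to `m` whose ray classes lie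
in a subgroup `H` of the ray class group**:
`[Cl_m : H] · ∑_{𝔭 ∈ S} N𝔭^(-s) ≤ log (1/(s-1)) + C` on `(1, 2]`. -/
theorem ray_primeSum_le (hm : m ≠ ⊥) (H : Subgroup (RayClassGroup E m T))
    (S : Set (HeightOneSpectrum (𝓞 E)))
    (hS : ∀ v ∈ S, ∃ h : v.asIdeal ∈ coprimeIdeals E m, rayMk E m T ⟨v.asIdeal, h⟩ ∈ H) :
    ∃ C : ℝ, ∀ s : ℝ, 1 < s → s ≤ 2 →
      (H.index : ℝ) * ∑' v : S, pw E s v.1 ≤ Real.log (1 / (s - 1)) + C := by
  classical
  let _ : Fintype (RayClassGroup E m T) := Fintype.ofFinite _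
  have : Finite ((RayClassGroup E m T ⧸ H) →* ℂˣ) := si_finite_char
  let _ : Fintype ((RayClassGroup E m T ⧸ H) →* ℂˣ) := Fintype.ofFinite _
  set π : RayClassGroup E m T →* (RayClassGroup E m T ⧸ H) := QuotientGroup.mk' H with hπ
  choose Bf hBf using (fun q => rayPartZeta_sub_bounded hm T q 1)
  obtain ⟨Cz, hCz⟩ := Fermat.Agent.Lib.Frob.exists_bound_log_zetaR_Ioc E
  set B' : ℝ := max 1 (∑ q : RayClassGroup E m T, Bf q) with hB'
  have hB'1 : (1 : ℝ) ≤ B' := le_max_left _ _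
  have hlogB' : 0 ≤ Real.log B' := Real.log_nonneg hB'1
  refine ⟨Cz + (Fintype.card ((RayClassGroup E m T ⧸ H) →* ℂˣ) : ℝ) * Real.log B',
    fun s hs1 hs2 => ?_⟩
  -- the class and the weight at a prime
  set a : HeightOneSpectrum (𝓞 E) → (RayClassGroup E m T ⧸ H) := fun v =>
    if h : v.asIdeal ∈ coprimeIdeals E m then π (rayMk E m T ⟨v.asIdeal, h⟩) else 1 with ha
  set x : HeightOneSpectrum (𝓞 E) → ℝ := fun v =>
    if v.asIdeal ∈ coprimeIdeals E m then pw E s v else 0 with hx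
  have hterm : ∀ (χ : (RayClassGroup E m T ⧸ H) →* ℂˣ) (v : HeightOneSpectrum (𝓞 E)),
      rayTerm E m T (χ.comp π) s v.asIdeal = ((χ (a v) : ℂˣ) : ℂ) * ((x v : ℝ) : ℂ) := by
    intro χ v
    by_cases h : v.asIdeal ∈ coprimeIdeals E m
    · rw [rayTerm_of_mem _ s h, ha, hx]
      simp only [dif_pos h, if_pos h]
      rfl
    · rw [rayTerm_of_notMem _ s h, ha, hx]
      simp only [dif_neg h, if_neg h]
      simp
  set u : ((RayClassGroup E m T ⧸ H) →* ℂˣ) → HeightOneSpectrum (𝓞 E) → ℝ := fun χ v =>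
    -Real.log ‖1 - ((χ (a v) : ℂˣ) : ℂ) * ((x v : ℝ) : ℂ)‖ with hu
  have hχ : ∀ χ : (RayClassGroup E m T ⧸ H) →* ℂˣ,
      Summable (u χ) ∧ ‖rayL E m T (χ.comp π) s‖ = Real.exp (∑' v, u χ v) := by
    intro χ
    have h := rayL_euler (χ.comp π) hs1
    simp only [hterm] at h
    exact h
  have hpw0 : ∀ v : HeightOneSpectrum (𝓞 E), 0 ≤ pw E s v :=
    fun v => Fermat.Agent.Lib.Frob.pw_nonneg s v
  have hpw1 : ∀ v : HeightOneSpectrum (𝓞 E), pw E s v < 1 := fun v =>
    lt_of_le_of_lt (Fermat.Agent.Lib.Frob.pw_le_half hs1.le v) (by norm_num)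
  have hx0 : ∀ v : HeightOneSpectrum (𝓞 E), 0 ≤ x v := by
    intro v
    rw [hx]
    show 0 ≤ (if v.asIdeal ∈ coprimeIdeals E m then pw E s v else 0)
    split_ifs
    · exact hpw0 v
    · exact le_rfl
  have hx1 : ∀ v : HeightOneSpectrum (𝓞 E), x v < 1 := by
    intro v
    rw [hx]
    show (if v.asIdeal ∈ coprimeIdeals E m then pw E s v else 0) < 1
    split_ifs
    · exact hpw1 v
    · exact zero_lt_one
  have hpt : ∀ v : HeightOneSpectrum (𝓞 E),
      (if a v = 1 then (Nat.card (RayClassGroup E m T ⧸ H) : ℝ) * x v else 0) ≤ ∑ χ, u χ v := by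
    intro v
    exact si_sum_char_neg_log (a v) (hx0 v) (hx1 v)
  have hnn : ∀ v : HeightOneSpectrum (𝓞 E), 0 ≤ ∑ χ, u χ v := by
    intro v
    refine le_trans ?_ (hpt v)
    split_ifs
    · exact mul_nonneg (Nat.cast_nonneg _) (hx0 v)
    · exact le_rfl
  have hsumV : Summable (fun v : HeightOneSpectrum (𝓞 E) => ∑ χ, u χ v) :=
    summable_sum fun χ _ => (hχ χ).1
  have hSsum : Summable (fun v : S => pw E s v.1) :=
    (Fermat.Agent.Lib.Frob.summable_pw E hs1).subtype S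
  have hlow : (Nat.card (RayClassGroup E m T ⧸ H) : ℝ) * ∑' v : S, pw E s v.1 ≤
      ∑ χ, ∑' v, u χ v := by
    rw [← Summable.tsum_finsetSum (fun χ _ => (hχ χ).1), ← tsum_mul_left]
    refine le_trans (Summable.tsum_le_tsum (fun v : S => ?_) (hSsum.mul_left _)
      (hsumV.subtype S)) (Summable.tsum_subtype_le _ S hnn hsumV)
    obtain ⟨h, hH⟩ := hS v.1 v.2
    have h1 : a v.1 = 1 := by
      rw [ha]
      simp only [dif_pos h]
      exact (QuotientGroup.eq_one_iff _).mpr hH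
    have h2 : x v.1 = pw E s v.1 := by
      rw [hx]
      simp only [if_pos h]
    have := hpt v.1
    rwa [if_pos h1, h2] at this
  have hlogeq : ∀ χ : (RayClassGroup E m T ⧸ H) →* ℂˣ,
      Real.log ‖rayL E m T (χ.comp π) s‖ = ∑' v, u χ v := fun χ => by
    rw [(hχ χ).2, Real.log_exp]
  have hposL : ∀ χ : (RayClassGroup E m T ⧸ H) →* ℂˣ, 0 < ‖rayL E m T (χ.comp π) s‖ := by
    intro χ
    rw [(hχ χ).2]
    exact Real.exp_pos _
  have hup1 : Real.log ‖rayL E m T ((1 : (RayClassGroup E m T ⧸ H) →* ℂˣ).comp π) s‖ ≤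
      Real.log (1 / (s - 1)) + Cz := by
    have h1 := hposL 1
    have h2 : ‖rayL E m T ((1 : (RayClassGroup E m T ⧸ H) →* ℂˣ).comp π) s‖ ≤ zetaR E s := by
      rw [MonoidHom.one_comp]
      exact norm_rayL_one_le hs1
    have h3 := Real.log_le_log h1 h2
    have := hCz s hs1 hs2
    linarith [(abs_le.mp this).2]
  have hupχ : ∀ χ : (RayClassGroup E m T ⧸ H) →* ℂˣ, χ ≠ 1 →
      Real.log ‖rayL E m T (χ.comp π) s‖ ≤ Real.log B' := by
    intro χ hχ1
    have hne : χ.comp π ≠ 1 := by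
      intro h
      apply hχ1
      refine MonoidHom.ext fun b => ?_
      obtain ⟨c, rfl⟩ := QuotientGroup.mk'_surjective H b
      have h2 : (χ.comp π) c = 1 := by
        rw [h]
        rfl
      exact h2
    refine Real.log_le_log (hposL χ) ?_
    refine (norm_rayL_le _ hne hs1).trans (le_trans ?_ (le_max_right _ _))
    exact Finset.sum_le_sum fun q _ => hBf q s hs1 hs2
  have hup : ∑ χ, ∑' v, u χ v ≤ Real.log (1 / (s - 1)) + Cz +
      (Fintype.card ((RayClassGroup E m T ⧸ H) →* ℂˣ) : ℝ) * Real.log B' := by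
    simp only [← hlogeq]
    rw [← Finset.add_sum_erase Finset.univ _
      (Finset.mem_univ (1 : (RayClassGroup E m T ⧸ H) →* ℂˣ))]
    refine add_le_add hup1 ?_
    refine (Finset.sum_le_card_nsmul _ _ (Real.log B')
      (fun χ hχ' => hupχ χ (Finset.ne_of_mem_erase hχ'))).trans ?_
    rw [nsmul_eq_mul]
    refine mul_le_mul_of_nonneg_right ?_ hlogB'
    exact_mod_cast Finset.card_le_univ _
  have hidx : (H.index : ℝ) = (Nat.card (RayClassGroup E m T ⧸ H) : ℝ) := rfl
  rw [hidx]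
  linarith

end RayL

section Relative

open Fermat.Agent.Lib.Frob (degOne)

variable (E M : Type*) [Field E] [NumberField E] [Field M] [NumberField M] [Algebra E M]

/-- A prime not coprime to `m` divides `m`. -/
theorem dvd_of_not_mem_coprimeIdeals {m : Ideal (𝓞 E)} (v : HeightOneSpectrum (𝓞 E))
    (hv : v.asIdeal ∉ coprimeIdeals E m) : v.asIdeal ∣ m := by
  rw [Ideal.dvd_iff_le]
  by_contra hnle
  apply hv
  refine ⟨v.ne_bot, ?_⟩
  rw [Ideal.isCoprime_iff_sup_eq]
  by_contra htop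
  have e := v.isMaximal.eq_of_le htop le_sup_left
  have hle : m ≤ v.asIdeal ⊔ m := le_sup_right
  rw [← e] at hle
  exact hnle hle

/-- **Universal norm index inequality with modulus**, for the ray class group: a subgroup `H` of
the ray class group modulo `m` (and `T`) of `E` containing the classes of all primes of `E`
coprime to `m` lying below a prime of `M` of relative degree one has index at most `[M : E]`. -/
theorem rayClassGroup_index_le_finrank {m : Ideal (𝓞 E)} (hm : m ≠ ⊥)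
    {T : Set {w : InfinitePlace E // w.IsReal}} (H : Subgroup (RayClassGroup E m T))
    (hH : ∀ (w : HeightOneSpectrum (𝓞 M))
      (hv : (w.under (𝓞 E)).asIdeal ∈ coprimeIdeals E m),
      w.asIdeal.inertiaDeg (𝓞 E) = 1 → rayMk E m T ⟨(w.under (𝓞 E)).asIdeal, hv⟩ ∈ H) :
    H.index ≤ Module.finrank E M := by
  classical
  by_contra hcon
  push Not at hcon
  set S : Set (HeightOneSpectrum (𝓞 E)) :=
    {v | v ∈ splitPrimes E M ∧ v.asIdeal ∈ coprimeIdeals E m} with hSdef
  have hS : ∀ v ∈ S, ∃ h : v.asIdeal ∈ coprimeIdeals E m, rayMk E m T ⟨v.asIdeal, h⟩ ∈ H := by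
    rintro v ⟨⟨w, hw, rfl⟩, hv⟩
    exact ⟨hv, hH w hv hw⟩
  obtain ⟨C₁, hC₁⟩ := ray_primeSum_le hm H S hS
  obtain ⟨C₂, hC₂⟩ := Fermat.Agent.Lib.Frob.tsum_degOne_sub_log_bounded_Ioc M
  -- the primes dividing `m`
  have hfin : {v : HeightOneSpectrum (𝓞 E) | v.asIdeal ∣ m}.Finite := Ideal.finite_factors hm
  set F : Finset (HeightOneSpectrum (𝓞 E)) := hfin.toFinset with hF
  have hbad : ∀ v : HeightOneSpectrum (𝓞 E), v.asIdeal ∉ coprimeIdeals E m → v ∈ F := by
    intro v hv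
    rw [hF, Set.Finite.mem_toFinset]
    exact dvd_of_not_mem_coprimeIdeals E v hv
  have hPle : ∀ s : ℝ, 1 < s →
      ∑' v : ↥(splitPrimes E M), pw E s v.1 ≤ ∑' v : S, pw E s v.1 + F.card := by
    intro s hs
    have hsum := Fermat.Agent.Lib.Frob.summable_pw E hs
    have hnn : ∀ v : HeightOneSpectrum (𝓞 E), 0 ≤ pw E s v :=
      fun v => Fermat.Agent.Lib.Frob.pw_nonneg s v
    rw [tsum_subtype (splitPrimes E M) (pw E s), tsum_subtype S (pw E s)]
    have h3 : ∑' v, (↑F : Set (HeightOneSpectrum (𝓞 E))).indicator (pw E s) v ≤ F.card := by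
      rw [← tsum_subtype, Finset.tsum_subtype']
      calc ∑ v ∈ F, pw E s v ≤ ∑ v ∈ F, (1 : ℝ) :=
            Finset.sum_le_sum fun v _ =>
              le_trans (Fermat.Agent.Lib.Frob.pw_le_half hs.le v) (by norm_num)
        _ = F.card := by simp
    have hpt : ∀ v : HeightOneSpectrum (𝓞 E), (splitPrimes E M).indicator (pw E s) v ≤
        S.indicator (pw E s) v + (↑F : Set (HeightOneSpectrum (𝓞 E))).indicator (pw E s) v := by
      intro v
      have h1 : 0 ≤ S.indicator (pw E s) v := Set.indicator_nonneg (fun v _ => hnn v) v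
      have h2 : 0 ≤ (↑F : Set (HeightOneSpectrum (𝓞 E))).indicator (pw E s) v :=
        Set.indicator_nonneg (fun v _ => hnn v) v
      by_cases hvA : v ∈ splitPrimes E M
      · rw [Set.indicator_of_mem hvA]
        by_cases hvc : v.asIdeal ∈ coprimeIdeals E m
        · rw [Set.indicator_of_mem (show v ∈ S from ⟨hvA, hvc⟩)]
          linarith
        · rw [Set.indicator_of_mem
            (show v ∈ (↑F : Set (HeightOneSpectrum (𝓞 E))) from Finset.mem_coe.mpr (hbad v hvc))]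
          linarith
      · rw [Set.indicator_of_notMem hvA]
        linarith
    calc ∑' v, (splitPrimes E M).indicator (pw E s) v
        ≤ ∑' v, (S.indicator (pw E s) v
            + (↑F : Set (HeightOneSpectrum (𝓞 E))).indicator (pw E s) v) :=
          Summable.tsum_le_tsum hpt (hsum.indicator _)
            ((hsum.indicator _).add (hsum.indicator _))
      _ = ∑' v, S.indicator (pw E s) v
            + ∑' v, (↑F : Set (HeightOneSpectrum (𝓞 E))).indicator (pw E s) v :=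
          Summable.tsum_add (hsum.indicator _) (hsum.indicator _)
      _ ≤ ∑' v, S.indicator (pw E s) v + F.card := by linarith
  set d := Module.finrank E M with hd
  set c : ℝ := (F.card : ℝ) with hc
  set Kc : ℝ := d * C₁ + (d + 1) * (C₂ + d * c) with hK
  set s : ℝ := 1 + Real.exp (-(|Kc| + 1)) with hs
  have hs1 : 1 < s := by
    have := Real.exp_pos (-(|Kc| + 1))
    linarith
  have hs2 : s ≤ 2 := by
    have : Real.exp (-(|Kc| + 1)) ≤ 1 := Real.exp_le_one_iff.mpr (by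
      have := abs_nonneg Kc
      linarith)
    linarith
  have hℓ : Real.log (1 / (s - 1)) = |Kc| + 1 := by
    rw [hs, add_sub_cancel_left, one_div, Real.log_inv, Real.log_exp, neg_neg]
  have h1 := hC₁ s hs1 hs2
  have h2 := (abs_le.mp (hC₂ s hs1 hs2)).1
  have h3 := si_degOne_le E M hs1
  have h3' := hPle s hs1
  set P' := ∑' v : S, pw E s v.1 with hP'
  set P := ∑' v : ↥(splitPrimes E M), pw E s v.1 with hP
  have hP'0 : 0 ≤ P' := tsum_nonneg fun v => Fermat.Agent.Lib.Frob.pw_nonneg s v.1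
  have hidx : ((d : ℝ) + 1) ≤ (H.index : ℝ) := by exact_mod_cast hcon
  have hd0 : (0 : ℝ) ≤ d := Nat.cast_nonneg d
  rw [hℓ] at h1 h2
  have h4 : ((d : ℝ) + 1) * P' ≤ |Kc| + 1 + C₁ :=
    le_trans (mul_le_mul_of_nonneg_right hidx hP'0) h1
  have h5 : (d : ℝ) * P ≤ d * (P' + c) := mul_le_mul_of_nonneg_left h3' hd0
  have h6 : |Kc| + 1 - C₂ - d * c ≤ d * P' := by
    have e : (d : ℝ) * (P' + c) = d * P' + d * c := by ring
    linarith
  have h7 : ((d : ℝ) + 1) * (|Kc| + 1 - C₂ - d * c) ≤ ((d : ℝ) + 1) * (d * P') :=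
    mul_le_mul_of_nonneg_left h6 (by linarith)
  have h8 : (d : ℝ) * (((d : ℝ) + 1) * P') ≤ d * (|Kc| + 1 + C₁) :=
    mul_le_mul_of_nonneg_left h4 hd0
  have h9 : |Kc| + 1 ≤ Kc := by
    rw [hK]
    have e1 : ((d : ℝ) + 1) * (d * P') = d * (((d : ℝ) + 1) * P') := by ring
    nlinarith
  linarith [le_abs_self Kc]

/-- **Universal norm index inequality with modulus** ("second inequality"), abstract form: `G` any
commutative group with a surjective monoid hom `cl` from the nonzero ideals of `E` coprime to `m`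
which kills the principal ideals generated by ray generators (`a ≡ 1 mod m`, positive at `T`);
a subgroup `H` of `G` containing `cl 𝔭` for all primes `𝔭` of `E` coprime to `m` lying below a
prime of `M` of relative degree one has finite index at most `[M : E]`. -/
theorem ray_index_le_finrank (m : Ideal (𝓞 E)) (hm : m ≠ ⊥)
    (T : Set {w : InfinitePlace E // w.IsReal}) {G : Type*} [CommGroup G]
    (cl : coprimeIdeals E m →* G) (hcl : Function.Surjective cl)
    (hker : ∀ (a : 𝓞 E) (ha : a ∈ rayGen E m T) (ha0 : a ≠ 0),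
      cl ⟨Ideal.span {a}, span_mem_coprimeIdeals ha ha0⟩ = 1)
    (H : Subgroup G)
    (hH : ∀ (w : HeightOneSpectrum (𝓞 M))
      (hv : (w.under (𝓞 E)).asIdeal ∈ coprimeIdeals E m),
      w.asIdeal.inertiaDeg (𝓞 E) = 1 → cl ⟨(w.under (𝓞 E)).asIdeal, hv⟩ ∈ H) :
    H.index ≠ 0 ∧ H.index ≤ Module.finrank E M := by
  have hfin : Finite G := finite_of_rayHom cl hker hcl
  refine ⟨Subgroup.index_ne_zero_of_finite, ?_⟩
  have hsurj := rayLift_surjective cl hker hcl
  rw [← Subgroup.index_comap_of_surjective H hsurj]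
  refine rayClassGroup_index_le_finrank E M hm (H.comap (rayLift cl hker)) (fun w hv hw => ?_)
  rw [Subgroup.mem_comap, rayLift_rayMk]
  exact hH w hv hw

/-- Norm form of `ray_index_le_finrank`: `H` contains `cl (N_{M/E} 𝔓)` for every prime `𝔓` of
`M` whose relative norm is coprime to `m`. So `[I^m : P_m · N(I_M^m)] ≤ [M : E]`. -/
theorem ray_index_le_finrank_relNorm (m : Ideal (𝓞 E)) (hm : m ≠ ⊥)
    (T : Set {w : InfinitePlace E // w.IsReal}) {G : Type*} [CommGroup G]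
    (cl : coprimeIdeals E m →* G) (hcl : Function.Surjective cl)
    (hker : ∀ (a : 𝓞 E) (ha : a ∈ rayGen E m T) (ha0 : a ≠ 0),
      cl ⟨Ideal.span {a}, span_mem_coprimeIdeals ha ha0⟩ = 1)
    (H : Subgroup G)
    (hH : ∀ (w : HeightOneSpectrum (𝓞 M))
      (h : Ideal.relNorm (𝓞 E) w.asIdeal ∈ coprimeIdeals E m),
      cl ⟨Ideal.relNorm (𝓞 E) w.asIdeal, h⟩ ∈ H) :
    H.index ≠ 0 ∧ H.index ≤ Module.finrank E M := by
  refine ray_index_le_finrank E M m hm T cl hcl hker H (fun w hv hw => ?_)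
  have hrel : Ideal.relNorm (𝓞 E) w.asIdeal = (w.under (𝓞 E)).asIdeal := by
    have : w.asIdeal.LiesOver (w.under (𝓞 E)).asIdeal := ⟨rfl⟩
    have := w.isMaximal
    have := (w.under (𝓞 E)).isMaximal
    rw [Ideal.relNorm_eq_pow_of_isMaximal w.asIdeal (w.under (𝓞 E)).asIdeal, hw, pow_one]
  have hmem : Ideal.relNorm (𝓞 E) w.asIdeal ∈ coprimeIdeals E m := by
    rw [hrel]
    exact hv
  have key : (⟨(w.under (𝓞 E)).asIdeal, hv⟩ : coprimeIdeals E m) =
      ⟨Ideal.relNorm (𝓞 E) w.asIdeal, hmem⟩ := Subtype.ext hrel.symm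
  rw [key]
  exact hH w hmem

end Relative

end Fermat.Agent.CFT.Ray
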