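import Fermat.Agent.CFT.Analytic.ClassZetaBdd

/-!
# Partial zeta functions of ray classes differ by a bounded amount near `s = 1`

`K` a number field, `m` a nonzero ideal of `𝓞 K`, `T` a set of real places.

* `rayGen K m T`: the integers `a ≡ 1 mod m` which are positive at the places of `T`.
* `rayClassSet K m T J`: the nonzero integral ideals `I` with `J * I = (a)`, `a ∈ rayGen K m T`,
  i.e. the integral ideals in the ray class (modulo `m`, `T`) inverse to the class of `J`.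
* `rayZeta K m T J s`: the partial zeta function `∑_{I ∈ rayClassSet K m T J} N(I)^(-s)`.

Main result `rayZeta_sub_bounded`: for `J`, `J'` prime to `m`, the difference
`rayZeta K m T J s - rayZeta K m T J' s` is bounded on `1 < s ≤ 2`.  This is the analytic input
of the universal norm index inequality (second inequality of class field theory) with modulus.

Proof.  The elements of `J` in the orbit `U · rayGen` of the ray generators under the full unit
group `U` are the generators of the ideals `J * I`, `I ∈ rayClassSet K m T J`, each generator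
ideal contributing a full `U`-orbit; so the sum of the weight `czPhi` over them unfolds to
`w * N(J)^(-s) * rayZeta`.  On the other hand these elements are those whose "type" (residue
class modulo `m`, signs at `T`) is the type of a unit; for each type they form a coset of
`J * m` cut out by a sign pattern, and the lattice comparison `integer_coset_tsum_compare`
compares the sum over the coset with `N(J * m)⁻¹` times the sum over all integers of the
sign-restricted weight `czPhiSgn`.  The resulting main term `rayMain` does not depend on `J`.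
-/

set_option autoImplicit false
set_option linter.unusedSectionVars false

namespace Fermat.Agent.CFT.Ray

open NumberField NumberField.InfinitePlace NumberField.mixedEmbedding NumberField.Units Ideal
open Fermat.Agent.CFT.Analytic
open scoped nonZeroDivisors Classical

variable (K : Type*) [Field K] [NumberField K]

/-- The sign pattern of `x` at the real places in `T` is `ε`. -/
def sgnOK (T : Set {w : InfinitePlace K // w.IsReal}) (ε : T → SignType) (x : mixedSpace K) : Prop :=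
  ∀ w : T, SignType.sign (x.1 w.1) = ε w

/-! ### Ray generators, ray classes, partial zeta functions -/

/-- The integers `a ≡ 1 mod m` which are positive at the real places in `T`. -/
def rayGen (m : Ideal (𝓞 K)) (T : Set {w : InfinitePlace K // w.IsReal}) : Set (𝓞 K) :=
  {a | a - 1 ∈ m ∧ ∀ w ∈ T, 0 < InfinitePlace.embedding_of_isReal w.2 (a : K)}

/-- The nonzero integral ideals `I` such that `J * I` is generated by an element of `rayGen`:
the integral ideals in the ray class (modulo `m` and `T`) inverse to that of `J`. -/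
def rayClassSet (m : Ideal (𝓞 K)) (T : Set {w : InfinitePlace K // w.IsReal})
    (J : (Ideal (𝓞 K))⁰) : Set (Ideal (𝓞 K))⁰ :=
  {I | ∃ a ∈ rayGen K m T, (J : Ideal (𝓞 K)) * (I : Ideal (𝓞 K)) = Ideal.span {a}}

/-- The partial zeta function of a ray class. -/
noncomputable def rayZeta (m : Ideal (𝓞 K)) (T : Set {w : InfinitePlace K // w.IsReal})
    (J : (Ideal (𝓞 K))⁰) (s : ℝ) : ℝ :=
  ∑' I : rayClassSet K m T J, (absNorm (I.1 : Ideal (𝓞 K)) : ℝ) ^ (-s)

theorem rayZeta_nonneg (m : Ideal (𝓞 K)) (T : Set {w : InfinitePlace K // w.IsReal})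
    (J : (Ideal (𝓞 K))⁰) (s : ℝ) : 0 ≤ rayZeta K m T J s :=
  tsum_nonneg (fun _ => Real.rpow_nonneg (Nat.cast_nonneg _) _)

theorem rayZeta_summable (m : Ideal (𝓞 K)) (T : Set {w : InfinitePlace K // w.IsReal})
    (J : (Ideal (𝓞 K))⁰) {s : ℝ} (hs : 1 < s) :
    Summable fun I : rayClassSet K m T J => (absNorm (I.1 : Ideal (𝓞 K)) : ℝ) ^ (-s) := by
  have h := Fermat.Agent.Lib.Frob.summable_wt K hs
  let f : rayClassSet K m T J → Fermat.Agent.Lib.Frob.NzIdeal K :=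
    fun I => ⟨(I.1 : Ideal (𝓞 K)), nonZeroDivisors.ne_zero I.1.2⟩
  have hinj : Function.Injective f := by
    intro a b hab
    have h1 : (a.1 : Ideal (𝓞 K)) = (b.1 : Ideal (𝓞 K)) := by
      have := congrArg (fun x : Fermat.Agent.Lib.Frob.NzIdeal K => x.1) hab
      simpa [f] using this
    exact Subtype.ext (Subtype.ext h1)
  have h2 := h.comp_injective hinj
  refine h2.congr (fun I => ?_)
  simp [f, Fermat.Agent.Lib.Frob.wt]

variable {K}

/-- The real coordinate of an integer at a real place. -/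
theorem intEmb_fst (b : 𝓞 K) (w : {w : InfinitePlace K // w.IsReal}) :
    (intEmb K b).1 w = InfinitePlace.embedding_of_isReal w.2 (b : K) := rfl

theorem intEmb_fst_mul (a b : 𝓞 K) (w : {w : InfinitePlace K // w.IsReal}) :
    (intEmb K (a * b)).1 w = (intEmb K a).1 w * (intEmb K b).1 w := by
  simp [intEmb_fst]

theorem intEmb_fst_one (w : {w : InfinitePlace K // w.IsReal}) :
    (intEmb K (1 : 𝓞 K)).1 w = 1 := by
  simp [intEmb_fst]

theorem rayGen_mul {m : Ideal (𝓞 K)} {T : Set {w : InfinitePlace K // w.IsReal}} {a b : 𝓞 K}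
    (ha : a ∈ rayGen K m T) (hb : b ∈ rayGen K m T) : a * b ∈ rayGen K m T := by
  refine ⟨?_, fun w hw => ?_⟩
  · have e : a * b - 1 = (a - 1) * b + (b - 1) := by ring
    rw [e]
    exact m.add_mem (m.mul_mem_right _ ha.1) hb.1
  · have h1 := ha.2 w hw
    have h2 := hb.2 w hw
    rw [← intEmb_fst] at h1 h2 ⊢
    rw [intEmb_fst_mul]
    exact mul_pos h1 h2

/-- If `a * x` and `x` are ray generators then so is `a`. -/
theorem rayGen_of_mul {m : Ideal (𝓞 K)} {T : Set {w : InfinitePlace K // w.IsReal}} {a x : 𝓞 K}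
    (hax : a * x ∈ rayGen K m T) (hx : x ∈ rayGen K m T) : a ∈ rayGen K m T := by
  refine ⟨?_, fun w hw => ?_⟩
  · have e : a - 1 = (a * x - 1) - a * (x - 1) := by ring
    rw [e]
    exact m.sub_mem hax.1 (m.mul_mem_left _ hx.1)
  · have h1 := hax.2 w hw
    have h2 := hx.2 w hw
    rw [← intEmb_fst] at h1 h2 ⊢
    rw [intEmb_fst_mul] at h1
    exact (pos_iff_pos_of_mul_pos h1).mpr h2

variable (K)

/-! ### The type of an integer: residue class and signs -/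

/-- The "type" of an integer: its residue class modulo `m` and its signs at the places of `T`. -/
noncomputable def rayTy (m : Ideal (𝓞 K)) (T : Set {w : InfinitePlace K // w.IsReal}) (b : 𝓞 K) :
    (𝓞 K ⧸ m) × (T → SignType) :=
  (Ideal.Quotient.mk m b, fun w => SignType.sign ((intEmb K b).1 w.1))

theorem rayTy_eq_iff (m : Ideal (𝓞 K)) (T : Set {w : InfinitePlace K // w.IsReal}) (b : 𝓞 K)
    (θ : (𝓞 K ⧸ m) × (T → SignType)) :
    rayTy K m T b = θ ↔ Ideal.Quotient.mk m b = θ.1 ∧ sgnOK K T θ.2 (intEmb K b) := by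
  unfold rayTy sgnOK
  rw [Prod.ext_iff, funext_iff]

/-- Membership in the orbit of the ray generators under the unit group. -/
def rayOrb (m : Ideal (𝓞 K)) (T : Set {w : InfinitePlace K // w.IsReal}) (b : 𝓞 K) : Prop :=
  ∃ u : (𝓞 K)ˣ, ∃ a ∈ rayGen K m T, b = u * a

theorem rayOrb_iff_rayTy (m : Ideal (𝓞 K)) (T : Set {w : InfinitePlace K // w.IsReal}) (b : 𝓞 K) :
    rayOrb K m T b ↔ ∃ u : (𝓞 K)ˣ, rayTy K m T (u : 𝓞 K) = rayTy K m T b := by
  constructor
  · rintro ⟨u, a, ⟨ha1, ha2⟩, rfl⟩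
    refine ⟨u, Prod.ext ?_ (funext fun w => ?_)⟩
    · show Ideal.Quotient.mk m (u : 𝓞 K) = Ideal.Quotient.mk m ((u : 𝓞 K) * a)
      rw [Ideal.Quotient.eq]
      have e : (u : 𝓞 K) - (u : 𝓞 K) * a = -((u : 𝓞 K) * (a - 1)) := by ring
      rw [e]
      exact m.neg_mem (m.mul_mem_left _ ha1)
    · show SignType.sign ((intEmb K (u : 𝓞 K)).1 w.1) = SignType.sign ((intEmb K ((u : 𝓞 K) * a)).1 w.1)
      have h := ha2 w.1 w.2
      rw [← intEmb_fst] at h
      rw [intEmb_fst_mul, sign_mul, sign_pos h, mul_one]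
  · rintro ⟨u, h⟩
    have h1 : Ideal.Quotient.mk m (u : 𝓞 K) = Ideal.Quotient.mk m b := congrArg Prod.fst h
    have h2 : ∀ w : T, SignType.sign ((intEmb K (u : 𝓞 K)).1 w.1)
        = SignType.sign ((intEmb K b).1 w.1) := fun w => congrFun (congrArg Prod.snd h) w
    refine ⟨u, ((u⁻¹ : (𝓞 K)ˣ) : 𝓞 K) * b, ⟨?_, fun w hw => ?_⟩, ?_⟩
    · rw [Ideal.Quotient.eq] at h1
      have e : ((u⁻¹ : (𝓞 K)ˣ) : 𝓞 K) * b - 1 = -(((u⁻¹ : (𝓞 K)ˣ) : 𝓞 K) * ((u : 𝓞 K) - b)) := by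
        have hu : ((u⁻¹ : (𝓞 K)ˣ) : 𝓞 K) * (u : 𝓞 K) = 1 := by simp
        linear_combination hu
      rw [e]
      exact m.neg_mem (m.mul_mem_left _ h1)
    · rw [← intEmb_fst, intEmb_fst_mul]
      have h3 := h2 ⟨w, hw⟩
      have h4 : SignType.sign ((intEmb K ((u⁻¹ : (𝓞 K)ˣ) : 𝓞 K)).1 w * (intEmb K b).1 w) = 1 := by
        rw [sign_mul, ← h3, ← sign_mul, ← intEmb_fst_mul]
        have hu : ((u⁻¹ : (𝓞 K)ˣ) : 𝓞 K) * (u : 𝓞 K) = 1 := by simp
        rw [hu, intEmb_fst_one, sign_one]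
      exact sign_eq_one_iff.mp h4
    · simp

theorem rayOrb_unit_mul (m : Ideal (𝓞 K)) (T : Set {w : InfinitePlace K // w.IsReal})
    (u : (𝓞 K)ˣ) (b : 𝓞 K) : rayOrb K m T ((u : 𝓞 K) * b) ↔ rayOrb K m T b := by
  constructor
  · rintro ⟨v, a, ha, e⟩
    refine ⟨u⁻¹ * v, a, ha, ?_⟩
    have : b = ((u⁻¹ : (𝓞 K)ˣ) : 𝓞 K) * ((u : 𝓞 K) * b) := by simp
    rw [this, e]
    simp [mul_assoc]
  · rintro ⟨v, a, ha, rfl⟩
    exact ⟨u * v, a, ha, by simp [mul_assoc]⟩

theorem rayOrb_iff_span (m : Ideal (𝓞 K)) (T : Set {w : InfinitePlace K // w.IsReal}) (b : 𝓞 K) :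
    rayOrb K m T b ↔ ∃ a ∈ rayGen K m T, Ideal.span {b} = Ideal.span {a} := by
  constructor
  · rintro ⟨u, a, ha, rfl⟩
    exact ⟨a, ha, Ideal.span_singleton_mul_left_unit u.isUnit a⟩
  · rintro ⟨a, ha, e⟩
    rw [Ideal.span_singleton_eq_span_singleton] at e
    obtain ⟨u, hu⟩ := e
    refine ⟨u⁻¹, a, ha, ?_⟩
    rw [← hu]
    simp [mul_comm]

/-! ### Sign-restricted weight -/

/-- The weight `czPhi` cut off by a sign pattern at the real places in `T`. -/
noncomputable def czPhiSgn (T : Set {w : InfinitePlace K // w.IsReal}) (ε : T → SignType) (s : ℝ)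
    (x : mixedSpace K) : ℝ :=
  if sgnOK K T ε x then czPhi K s x else 0

theorem czPhiSgn_nonneg (T : Set {w : InfinitePlace K // w.IsReal}) (ε : T → SignType) (s : ℝ)
    (x : mixedSpace K) : 0 ≤ czPhiSgn K T ε s x := by
  unfold czPhiSgn
  split_ifs
  · exact czPhi_nonneg K s x
  · exact le_rfl

theorem czPhiSgn_abs_le (T : Set {w : InfinitePlace K // w.IsReal}) (ε : T → SignType) (s : ℝ)
    (x : mixedSpace K) : |czPhiSgn K T ε s x| ≤ |czPhi K s x| := by
  unfold czPhiSgn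
  split_ifs
  · exact le_rfl
  · rw [abs_zero]; exact abs_nonneg _

theorem sign_add_eq_of_abs_lt {a b : ℝ} (h : |b| < |a|) : SignType.sign (a + b) = SignType.sign a := by
  rcases lt_trichotomy a 0 with ha | ha | ha
  · rw [abs_of_neg ha] at h
    have hb := (abs_lt.mp h).2
    rw [sign_neg ha, sign_neg (by linarith)]
  · rw [ha, abs_zero] at h
    exact absurd h (not_lt.mpr (abs_nonneg b))
  · rw [abs_of_pos ha] at h
    have hb := (abs_lt.mp h).1
    rw [sign_pos ha, sign_pos (by linarith)]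

/-- On the support of the weight, small perturbations do not change the sign pattern. -/
theorem sgnOK_add_iff : ∃ c₀ : ℝ, 0 < c₀ ∧ c₀ ≤ 1 ∧
    ∀ (T : Set {w : InfinitePlace K // w.IsReal}) (ε : T → SignType) (s : ℝ), s ≠ 0 →
    ∀ x v : mixedSpace K, czPhi K s x ≠ 0 → ‖v‖ < c₀ * ‖x‖ →
      (sgnOK K T ε (x + v) ↔ sgnOK K T ε x) := by
  obtain ⟨c₀, hc0, hc1, hcomp⟩ := cz_support_comparable K
  refine ⟨c₀, hc0, hc1, fun T ε s hs x v hx hv => ?_⟩
  obtain ⟨hν, hg⟩ := czPhi_ne_zero K hs hx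
  have key : ∀ w : T, SignType.sign ((x + v).1 w.1) = SignType.sign (x.1 w.1) := by
    intro w
    have h1 : c₀ * ‖x‖ ≤ normAtPlace w.1.1 x := hcomp x hν hg w.1.1
    rw [normAtPlace_apply_of_isReal w.1.2, Real.norm_eq_abs] at h1
    have h2 : |v.1 w.1| ≤ ‖v‖ := by
      have := cz_normAtPlace_le K w.1.1 v
      rwa [normAtPlace_apply_of_isReal w.1.2, Real.norm_eq_abs] at this
    have h3 : (x + v).1 w.1 = x.1 w.1 + v.1 w.1 := rfl
    rw [h3]
    exact sign_add_eq_of_abs_lt (by linarith)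
  unfold sgnOK
  constructor
  · intro h w
    rw [← key w]; exact h w
  · intro h w
    rw [key w]; exact h w

/-- **Homogeneous Lipschitz estimate** for the sign-restricted weight. -/
theorem czPhiSgn_lipschitz : ∃ C R : ℝ, 0 ≤ C ∧
    ∀ (T : Set {w : InfinitePlace K // w.IsReal}) (ε : T → SignType),
    ∀ s ∈ Set.Ioc (1 : ℝ) 2, ∀ x v : mixedSpace K,
    R * (1 + ‖v‖) ≤ ‖x‖ →
    |czPhiSgn K T ε s (x + v) - czPhiSgn K T ε s x|
      ≤ C * ‖v‖ * ‖x‖ ^ (-((Module.finrank ℚ K : ℝ) + 1)) := by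
  obtain ⟨C, R₀, hC, hlip⟩ := czPhi_lipschitz K
  obtain ⟨c₀, hc0, hc1, hsgn⟩ := sgnOK_add_iff K
  refine ⟨C, max R₀ (2 / c₀), hC, fun T ε s hs x v hxv => ?_⟩
  have hs0 : s ≠ 0 := by linarith [hs.1]
  have hv0 : 0 ≤ ‖v‖ := norm_nonneg v
  have h1v : 0 < 1 + ‖v‖ := by linarith
  have hR0 : R₀ * (1 + ‖v‖) ≤ ‖x‖ :=
    le_trans (mul_le_mul_of_nonneg_right (le_max_left _ _) h1v.le) hxv
  have hR1 : 2 / c₀ * (1 + ‖v‖) ≤ ‖x‖ :=
    le_trans (mul_le_mul_of_nonneg_right (le_max_right _ _) h1v.le) hxv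
  have hR1' : 2 * (1 + ‖v‖) ≤ c₀ * ‖x‖ := by
    rw [div_mul_eq_mul_div, div_le_iff₀ hc0] at hR1
    linarith
  have hbase := hlip s hs x v hR0
  have hx0 : 0 ≤ ‖x‖ := norm_nonneg x
  have hbound0 : 0 ≤ C * ‖v‖ * ‖x‖ ^ (-((Module.finrank ℚ K : ℝ) + 1)) :=
    mul_nonneg (mul_nonneg hC hv0) (Real.rpow_nonneg hx0 _)
  have hvx : ‖v‖ < c₀ * ‖x‖ := by linarith
  have hvxv : ‖-v‖ < c₀ * ‖x + v‖ := by
    rw [norm_neg]
    have h2 : ‖x‖ - ‖v‖ ≤ ‖x + v‖ := by
      have := norm_sub_norm_le x (-v)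
      simpa using this
    have h3 : c₀ * (‖x‖ - ‖v‖) ≤ c₀ * ‖x + v‖ := mul_le_mul_of_nonneg_left h2 hc0.le
    have h4 : c₀ * ‖v‖ ≤ ‖v‖ := mul_le_of_le_one_left hv0 hc1
    nlinarith
  have hiff : (czPhi K s x ≠ 0 ∨ czPhi K s (x + v) ≠ 0) →
      (sgnOK K T ε (x + v) ↔ sgnOK K T ε x) := by
    rintro (h | h)
    · exact hsgn T ε s hs0 x v h hvx
    · have := hsgn T ε s hs0 (x + v) (-v) h hvxv
      rw [add_neg_cancel_right] at this
      exact this.symm
  by_cases hzero : czPhi K s x ≠ 0 ∨ czPhi K s (x + v) ≠ 0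
  · have hi := hiff hzero
    unfold czPhiSgn
    by_cases hok : sgnOK K T ε x
    · rw [if_pos hok, if_pos (hi.mpr hok)]
      exact hbase
    · rw [if_neg hok, if_neg (fun h => hok (hi.mp h)), sub_zero, abs_zero]
      exact hbound0
  · push Not at hzero
    have e1 : czPhiSgn K T ε s x = 0 := by
      unfold czPhiSgn; split_ifs; exact hzero.1; rfl
    have e2 : czPhiSgn K T ε s (x + v) = 0 := by
      unfold czPhiSgn; split_ifs; exact hzero.2; rfl
    rw [e1, e2, sub_zero, abs_zero]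
    exact hbound0

/-- **Integers against a coset of an ideal.**  For a function `φ s` on the mixed space which is
bounded on integer points and homogeneously Lipschitz in the large, uniformly in `s ∈ S`, the
difference `∑_{a ∈ 𝓞 K} φ s a - N(J) · ∑_{d ∈ J} φ s (d + r)` is bounded on `S`. -/
theorem integer_coset_tsum_compare (J : Ideal (𝓞 K)) (hJ : J ≠ ⊥) (r : 𝓞 K) (S : Set ℝ)
    (φ : ℝ → mixedSpace K → ℝ) (M : ℝ)
    (hM : ∀ s ∈ S, ∀ a : 𝓞 K, |φ s (intEmb K a)| ≤ M)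
    (hlip : ∃ C R : ℝ, 0 ≤ C ∧ ∀ s ∈ S, ∀ x v : mixedSpace K, R * (1 + ‖v‖) ≤ ‖x‖ →
      |φ s (x + v) - φ s x| ≤ C * ‖v‖ * ‖x‖ ^ (-((Module.finrank ℚ K : ℝ) + 1)))
    (hsum : ∀ s ∈ S, Summable fun a : 𝓞 K => φ s (intEmb K a)) :
    ∃ B : ℝ, ∀ s ∈ S, |∑' a : 𝓞 K, φ s (intEmb K a)
      - (Ideal.absNorm J : ℝ) * ∑' d : J, φ s (intEmb K ((d : 𝓞 K) + r))| ≤ B := by
  obtain ⟨C, R, hC, hL⟩ := hlip
  have hN0 : (0 : ℝ) ≤ (Module.finrank ℚ K : ℝ) := Nat.cast_nonneg _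
  obtain ⟨B, hB⟩ := integer_ideal_tsum_compare K J hJ S (fun s x => φ s (x + intEmb K r)) M
    (fun s hs a => by
      have := hM s hs (a + r)
      rwa [intEmb_add] at this)
    (fun r' => by
      refine ⟨C * ‖intEmb K r'‖ * (1 / 2 : ℝ) ^ (-((Module.finrank ℚ K : ℝ) + 1)),
        2 * (|R| * (1 + ‖intEmb K r'‖) + ‖intEmb K r‖) + 1, fun s hs a ha => ?_⟩
      have hr0 : 0 ≤ ‖intEmb K r‖ := norm_nonneg _
      have hr'0 : 0 ≤ ‖intEmb K r'‖ := norm_nonneg _
      have hRabs : 0 ≤ |R| * (1 + ‖intEmb K r'‖) := mul_nonneg (abs_nonneg _) (by linarith)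
      have hxa : ‖intEmb K a‖ - ‖intEmb K r‖ ≤ ‖intEmb K a + intEmb K r‖ := by
        have := norm_sub_norm_le (intEmb K a) (-(intEmb K r))
        simpa using this
      have hhalf : ‖intEmb K a‖ / 2 ≤ ‖intEmb K a + intEmb K r‖ := by linarith
      have hapos : 0 < ‖intEmb K a‖ / 2 := by linarith
      have hx : R * (1 + ‖intEmb K r'‖) ≤ ‖intEmb K a + intEmb K r‖ := by
        have : R * (1 + ‖intEmb K r'‖) ≤ |R| * (1 + ‖intEmb K r'‖) :=
          mul_le_mul_of_nonneg_right (le_abs_self R) (by linarith)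
        linarith
      have h1 := hL s hs (intEmb K a + intEmb K r) (intEmb K r') hx
      have e : intEmb K a + intEmb K r' + intEmb K r = intEmb K a + intEmb K r + intEmb K r' := by
        abel
      rw [e]
      refine h1.trans ?_
      have h2 : ‖intEmb K a + intEmb K r‖ ^ (-((Module.finrank ℚ K : ℝ) + 1))
          ≤ (‖intEmb K a‖ / 2) ^ (-((Module.finrank ℚ K : ℝ) + 1)) :=
        Real.rpow_le_rpow_of_nonpos hapos hhalf (by linarith)
      have h3 : (‖intEmb K a‖ / 2) ^ (-((Module.finrank ℚ K : ℝ) + 1))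
          = ‖intEmb K a‖ ^ (-((Module.finrank ℚ K : ℝ) + 1))
            * (1 / 2 : ℝ) ^ (-((Module.finrank ℚ K : ℝ) + 1)) := by
        rw [div_eq_mul_one_div, Real.mul_rpow (norm_nonneg _) (by norm_num)]
      have e2 : (-(Module.finrank ℚ K : ℝ) - 1) = -((Module.finrank ℚ K : ℝ) + 1) := by ring
      rw [e2]
      calc C * ‖intEmb K r'‖ * ‖intEmb K a + intEmb K r‖ ^ (-((Module.finrank ℚ K : ℝ) + 1))
          ≤ C * ‖intEmb K r'‖ * (‖intEmb K a‖ / 2) ^ (-((Module.finrank ℚ K : ℝ) + 1)) :=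
            mul_le_mul_of_nonneg_left h2 (mul_nonneg hC hr'0)
        _ = C * ‖intEmb K r'‖ * (1 / 2 : ℝ) ^ (-((Module.finrank ℚ K : ℝ) + 1))
            * ‖intEmb K a‖ ^ (-((Module.finrank ℚ K : ℝ) + 1)) := by rw [h3]; ring)
    (fun s hs => by
      have := (hsum s hs).comp_injective (add_left_injective r)
      refine this.congr (fun a => ?_)
      simp [intEmb_add])
  refine ⟨B, fun s hs => ?_⟩
  have h := hB s hs
  have e1 : ∑' a : 𝓞 K, φ s (intEmb K a + intEmb K r) = ∑' a : 𝓞 K, φ s (intEmb K a) := by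
    have := (Equiv.addRight r).tsum_eq (fun a : 𝓞 K => φ s (intEmb K a))
    rw [← this]
    refine tsum_congr (fun a => ?_)
    simp [intEmb_add]
  have e2 : ∑' d : J, φ s (intEmb K (d : 𝓞 K) + intEmb K r)
      = ∑' d : J, φ s (intEmb K ((d : 𝓞 K) + r)) :=
    tsum_congr (fun d => by rw [intEmb_add])
  rw [e1, e2] at h
  exact h

/-! ### Unfolding along unit orbits -/

/-- The sum of the weight over the elements of `J` lying in the unit orbit of the ray generators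
unfolds to the partial zeta function of the ray class. -/
theorem ray_unfold (m : Ideal (𝓞 K)) (T : Set {w : InfinitePlace K // w.IsReal})
    (J : (Ideal (𝓞 K))⁰) {s : ℝ} (hs : 1 < s) :
    ∑' b : (J : Ideal (𝓞 K)),
        (if rayOrb K m T (b : 𝓞 K) then czPhi K s (intEmb K (b : 𝓞 K)) else 0)
      = (torsionOrder K : ℝ) * ((absNorm (J : Ideal (𝓞 K)) : ℝ) ^ (-s) * rayZeta K m T J s) := by
  set C : ClassGroup (𝓞 K) := (ClassGroup.mk0 J)⁻¹ with hC
  have hJC : ClassGroup.mk0 J = C⁻¹ := by rw [hC, inv_inv]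
  set G : Ideal (𝓞 K) → ℝ := fun 𝔞 =>
    if (∃ a ∈ rayGen K m T, 𝔞 = Ideal.span {a}) then (absNorm 𝔞 : ℝ) ^ (-s) else 0 with hGdef
  have hmul : ∀ I : (Ideal (𝓞 K))⁰,
      (absNorm ((J : Ideal (𝓞 K)) * (I : Ideal (𝓞 K))) : ℝ) ^ (-s)
        = (absNorm (J : Ideal (𝓞 K)) : ℝ) ^ (-s) * (absNorm (I : Ideal (𝓞 K)) : ℝ) ^ (-s) := by
    intro I
    rw [map_mul, Nat.cast_mul, Real.mul_rpow (Nat.cast_nonneg _) (Nat.cast_nonneg _)]
  have hG : Summable fun I : {I : (Ideal (𝓞 K))⁰ // ClassGroup.mk0 I = C} =>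
      G ((J : Ideal (𝓞 K)) * (I : Ideal (𝓞 K))) := by
    refine Summable.of_nonneg_of_le (fun I => ?_) (fun I => ?_)
      ((classZeta_summable K C hs).mul_left ((absNorm (J : Ideal (𝓞 K)) : ℝ) ^ (-s)))
    · simp only [hGdef]
      split_ifs
      · exact Real.rpow_nonneg (Nat.cast_nonneg _) _
      · exact le_rfl
    · simp only [hGdef]
      split_ifs
      · rw [hmul]
      · exact mul_nonneg (Real.rpow_nonneg (Nat.cast_nonneg _) _)
          (Real.rpow_nonneg (Nat.cast_nonneg _) _)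
  have horb : ∀ a : 𝓞 K, a ≠ 0 → HasSum (fun u : (𝓞 K)ˣ =>
      (fun b : 𝓞 K => if rayOrb K m T b then czPhi K s (intEmb K b) else 0) (u * a))
      ((torsionOrder K : ℝ) * G (Ideal.span {a})) := by
    intro a ha
    by_cases h : rayOrb K m T a
    · have hfun : (fun u : (𝓞 K)ˣ =>
          (fun b : 𝓞 K => if rayOrb K m T b then czPhi K s (intEmb K b) else 0) (u * a))
          = fun u : (𝓞 K)ˣ => czPhi K s (intEmb K ((u : 𝓞 K) * a)) := by
        funext u
        exact if_pos ((rayOrb_unit_mul K m T u a).mpr h)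
      have hGa : G (Ideal.span {a}) = (absNorm (Ideal.span {a}) : ℝ) ^ (-s) := by
        simp only [hGdef]
        rw [if_pos ((rayOrb_iff_span K m T a).mp h)]
      rw [hGa, hfun]
      exact czPhi_orbit_hasSum K s a ha
    · have hfun : (fun u : (𝓞 K)ˣ =>
          (fun b : 𝓞 K => if rayOrb K m T b then czPhi K s (intEmb K b) else 0) (u * a))
          = fun _ : (𝓞 K)ˣ => (0 : ℝ) := by
        funext u
        exact if_neg (fun h' => h ((rayOrb_unit_mul K m T u a).mp h'))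
      have hGa : G (Ideal.span {a}) = 0 := by
        simp only [hGdef]
        rw [if_neg (fun h' => h ((rayOrb_iff_span K m T a).mpr h'))]
      rw [hGa, hfun, mul_zero]
      exact hasSum_zero
  have key := (unfold_ideal_tsum K J C hJC
    (fun b : 𝓞 K => if rayOrb K m T b then czPhi K s (intEmb K b) else 0) G (torsionOrder K : ℝ)
    (fun b => by
      split_ifs
      · exact czPhi_nonneg K s _
      · exact le_rfl)
    (by
      split_ifs
      · exact czPhi_intEmb_zero K (by linarith)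
      · rfl)
    horb hG).2
  rw [key]
  congr 1
  have e1 : ∑' I : {I : (Ideal (𝓞 K))⁰ // ClassGroup.mk0 I = C},
      G ((J : Ideal (𝓞 K)) * (I : Ideal (𝓞 K)))
      = ∑' I : (Ideal (𝓞 K))⁰, Set.indicator {I : (Ideal (𝓞 K))⁰ | ClassGroup.mk0 I = C}
          (fun I : (Ideal (𝓞 K))⁰ => G ((J : Ideal (𝓞 K)) * (I : Ideal (𝓞 K)))) I :=
    tsum_subtype {I : (Ideal (𝓞 K))⁰ | ClassGroup.mk0 I = C}
      (fun I : (Ideal (𝓞 K))⁰ => G ((J : Ideal (𝓞 K)) * (I : Ideal (𝓞 K))))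
  have e2 : rayZeta K m T J s = ∑' I : (Ideal (𝓞 K))⁰, Set.indicator (rayClassSet K m T J)
      (fun I : (Ideal (𝓞 K))⁰ => (absNorm (I : Ideal (𝓞 K)) : ℝ) ^ (-s)) I :=
    tsum_subtype (rayClassSet K m T J)
      (fun I : (Ideal (𝓞 K))⁰ => (absNorm (I : Ideal (𝓞 K)) : ℝ) ^ (-s))
  rw [e1, e2, ← tsum_mul_left]
  refine tsum_congr (fun I => ?_)
  by_cases hI : I ∈ rayClassSet K m T J
  · have hcls : ClassGroup.mk0 I = C := by
      obtain ⟨a, -, e⟩ := hI
      have h1 : ClassGroup.mk0 (J * I) = 1 :=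
        (ClassGroup.mk0_eq_one_iff (J * I).2).mpr ⟨⟨a, e⟩⟩
      rw [map_mul] at h1
      rw [hC]
      exact eq_inv_of_mul_eq_one_right h1
    rw [Set.indicator_of_mem hI,
      Set.indicator_of_mem (show I ∈ {I : (Ideal (𝓞 K))⁰ | ClassGroup.mk0 I = C} from hcls)]
    simp only [hGdef]
    rw [if_pos (show ∃ a ∈ rayGen K m T, (J : Ideal (𝓞 K)) * (I : Ideal (𝓞 K)) = Ideal.span {a}
      from hI), hmul]
  · rw [Set.indicator_of_notMem hI, mul_zero]
    by_cases hcls : ClassGroup.mk0 I = C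
    · rw [Set.indicator_of_mem (show I ∈ {I : (Ideal (𝓞 K))⁰ | ClassGroup.mk0 I = C} from hcls)]
      simp only [hGdef]
      rw [if_neg (show ¬ ∃ a ∈ rayGen K m T, (J : Ideal (𝓞 K)) * (I : Ideal (𝓞 K)) = Ideal.span {a}
        from hI)]
    · rw [Set.indicator_of_notMem
        (show I ∉ {I : (Ideal (𝓞 K))⁰ | ClassGroup.mk0 I = C} from hcls)]

/-- The elements of `J` of a given type form a coset of `J * m` cut out by a sign pattern. -/
theorem ray_coset_sum (m : Ideal (𝓞 K)) (T : Set {w : InfinitePlace K // w.IsReal})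
    (J : (Ideal (𝓞 K))⁰) (hJ : IsCoprime (J : Ideal (𝓞 K)) m)
    (θ : (𝓞 K ⧸ m) × (T → SignType)) (c' : 𝓞 K) (hc'J : c' ∈ (J : Ideal (𝓞 K)))
    (hc' : Ideal.Quotient.mk m c' = θ.1) (s : ℝ) :
    ∑' b : (J : Ideal (𝓞 K)),
        (if rayTy K m T (b : 𝓞 K) = θ then czPhi K s (intEmb K (b : 𝓞 K)) else 0)
      = ∑' d : ((J : Ideal (𝓞 K)) * m : Ideal (𝓞 K)),
          czPhiSgn K T θ.2 s (intEmb K ((d : 𝓞 K) + c')) := by
  set ι : ((J : Ideal (𝓞 K)) * m : Ideal (𝓞 K)) → (J : Ideal (𝓞 K)) :=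
    fun d => ⟨(d : 𝓞 K) + c', (J : Ideal (𝓞 K)).add_mem (Ideal.mul_le_left d.2) hc'J⟩ with hι
  have hinj : Function.Injective ι := by
    intro d d' h
    have h1 : (d : 𝓞 K) + c' = (d' : 𝓞 K) + c' := congrArg Subtype.val h
    exact Subtype.ext (add_right_cancel h1)
  have hsupp : Function.support (fun b : (J : Ideal (𝓞 K)) =>
      if rayTy K m T (b : 𝓞 K) = θ then czPhi K s (intEmb K (b : 𝓞 K)) else 0) ⊆ Set.range ι := by
    intro b hb
    rw [Function.mem_support] at hb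
    have hty : rayTy K m T (b : 𝓞 K) = θ := by
      by_contra h
      exact hb (if_neg h)
    have h1 : Ideal.Quotient.mk m (b : 𝓞 K) = Ideal.Quotient.mk m c' := by
      rw [hc']
      exact ((rayTy_eq_iff K m T _ θ).mp hty).1
    rw [Ideal.Quotient.eq] at h1
    have h2 : (b : 𝓞 K) - c' ∈ (J : Ideal (𝓞 K)) * m := by
      rw [Ideal.mul_eq_inf_of_isCoprime hJ]
      exact ⟨(J : Ideal (𝓞 K)).sub_mem b.2 hc'J, h1⟩
    exact ⟨⟨(b : 𝓞 K) - c', h2⟩, Subtype.ext (by simp [hι])⟩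
  rw [← hinj.tsum_eq hsupp]
  refine tsum_congr (fun d => ?_)
  have hd : Ideal.Quotient.mk m ((d : 𝓞 K) + c') = θ.1 := by
    rw [← hc', Ideal.Quotient.eq, add_sub_cancel_right]
    exact Ideal.mul_le_right d.2
  show (if rayTy K m T ((d : 𝓞 K) + c') = θ then czPhi K s (intEmb K ((d : 𝓞 K) + c')) else 0) = _
  unfold czPhiSgn
  refine if_congr ?_ rfl rfl
  rw [rayTy_eq_iff]
  exact ⟨fun h => h.2, fun h => ⟨hd, h⟩⟩

/-! ### Comparison with a main term independent of the class -/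

/-- The main term: a sum of sign-restricted lattice sums over the types of units.  It does not
depend on the ray class. -/
noncomputable def rayMain (m : Ideal (𝓞 K)) (T : Set {w : InfinitePlace K // w.IsReal})
    [Fintype (𝓞 K ⧸ m)] (s : ℝ) : ℝ :=
  ∑ θ : (𝓞 K ⧸ m) × (T → SignType),
    if (∃ u : (𝓞 K)ˣ, rayTy K m T (u : 𝓞 K) = θ) then
      ∑' a : 𝓞 K, czPhiSgn K T θ.2 s (intEmb K a) else 0

theorem ray_J_compare (m : Ideal (𝓞 K)) (hm : m ≠ ⊥) (T : Set {w : InfinitePlace K // w.IsReal})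
    [Fintype (𝓞 K ⧸ m)] (J : (Ideal (𝓞 K))⁰) (hJ : IsCoprime (J : Ideal (𝓞 K)) m) :
    ∃ B : ℝ, ∀ s ∈ Set.Ioc (1 : ℝ) 2,
      |rayMain K m T s - (absNorm m : ℝ) * ((torsionOrder K : ℝ) *
        ((absNorm (J : Ideal (𝓞 K)) : ℝ) ^ (1 - s) * rayZeta K m T J s))| ≤ B := by
  have hJm : (J : Ideal (𝓞 K)) * m ≠ ⊥ := mul_ne_zero (nonZeroDivisors.ne_zero J.2) hm
  have hc : ∀ cb : 𝓞 K ⧸ m, ∃ c' : 𝓞 K, c' ∈ (J : Ideal (𝓞 K)) ∧ Ideal.Quotient.mk m c' = cb := by
    intro cb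
    obtain ⟨c, rfl⟩ := Ideal.Quotient.mk_surjective cb
    obtain ⟨j, hj, μ, hμ, hjμ⟩ := Ideal.isCoprime_iff_exists.mp hJ
    refine ⟨c * j, (J : Ideal (𝓞 K)).mul_mem_left _ hj, ?_⟩
    rw [Ideal.Quotient.eq]
    have e : c * j - c = -(c * μ) := by linear_combination c * hjμ
    rw [e]
    exact m.neg_mem (m.mul_mem_left _ hμ)
  choose cf hcfJ hcf using hc
  obtain ⟨C, R, hC, hlip⟩ := czPhiSgn_lipschitz K
  have hcmp : ∀ θ : (𝓞 K ⧸ m) × (T → SignType), ∃ B : ℝ, ∀ s ∈ Set.Ioc (1 : ℝ) 2,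
      |∑' a : 𝓞 K, czPhiSgn K T θ.2 s (intEmb K a)
        - (absNorm ((J : Ideal (𝓞 K)) * m) : ℝ) * ∑' d : ((J : Ideal (𝓞 K)) * m : Ideal (𝓞 K)),
            czPhiSgn K T θ.2 s (intEmb K ((d : 𝓞 K) + cf θ.1))| ≤ B := by
    intro θ
    exact integer_coset_tsum_compare K _ hJm (cf θ.1) (Set.Ioc 1 2) (czPhiSgn K T θ.2) 1
      (fun s hs a => (czPhiSgn_abs_le K T θ.2 s _).trans (czPhi_intEmb_abs_le_one K hs.1 a))
      ⟨C, R, hC, fun s hs x v h => hlip T θ.2 s hs x v h⟩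
      (fun s hs => Summable.of_norm_bounded (czPhi_intEmb_summable K hs) (fun a => by
        rw [Real.norm_eq_abs]
        exact (czPhiSgn_abs_le K T θ.2 s _).trans (le_of_eq (abs_of_nonneg (czPhi_nonneg K s _)))))
  choose Bf hBf using hcmp
  refine ⟨∑ θ, |Bf θ|, fun s hs => ?_⟩
  have hsumJ : Summable fun b : (J : Ideal (𝓞 K)) => czPhi K s (intEmb K (b : 𝓞 K)) :=
    (czPhi_intEmb_summable K hs).comp_injective Subtype.val_injective
  have key1 : ∑' b : (J : Ideal (𝓞 K)),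
      (if rayOrb K m T (b : 𝓞 K) then czPhi K s (intEmb K (b : 𝓞 K)) else 0)
      = ∑ θ : (𝓞 K ⧸ m) × (T → SignType), if (∃ u : (𝓞 K)ˣ, rayTy K m T (u : 𝓞 K) = θ) then
          ∑' d : ((J : Ideal (𝓞 K)) * m : Ideal (𝓞 K)),
            czPhiSgn K T θ.2 s (intEmb K ((d : 𝓞 K) + cf θ.1)) else 0 := by
    have hpt : ∀ b : (J : Ideal (𝓞 K)),
        (if rayOrb K m T (b : 𝓞 K) then czPhi K s (intEmb K (b : 𝓞 K)) else 0)
        = ∑ θ : (𝓞 K ⧸ m) × (T → SignType), (if (∃ u : (𝓞 K)ˣ, rayTy K m T (u : 𝓞 K) = θ) then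
            (if rayTy K m T (b : 𝓞 K) = θ then czPhi K s (intEmb K (b : 𝓞 K)) else 0) else 0) := by
      intro b
      have hθ : ∀ θ : (𝓞 K ⧸ m) × (T → SignType),
          (if (∃ u : (𝓞 K)ˣ, rayTy K m T (u : 𝓞 K) = θ) then
            (if rayTy K m T (b : 𝓞 K) = θ then czPhi K s (intEmb K (b : 𝓞 K)) else 0) else 0)
          = if rayTy K m T (b : 𝓞 K) = θ then
              (if rayOrb K m T (b : 𝓞 K) then czPhi K s (intEmb K (b : 𝓞 K)) else 0) else 0 := by
        intro θ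
        by_cases h1 : rayTy K m T (b : 𝓞 K) = θ
        · rw [if_pos h1, if_pos h1]
          have hiff : (∃ u : (𝓞 K)ˣ, rayTy K m T (u : 𝓞 K) = θ) ↔ rayOrb K m T (b : 𝓞 K) := by
            rw [rayOrb_iff_rayTy, h1]
          exact if_congr hiff rfl rfl
        · rw [if_neg h1, if_neg h1, ite_self]
      rw [Finset.sum_congr rfl (fun θ _ => hθ θ), Finset.sum_ite_eq]
      simp
    rw [tsum_congr hpt, Summable.tsum_finsetSum]
    · refine Finset.sum_congr rfl (fun θ _ => ?_)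
      by_cases hP : ∃ u : (𝓞 K)ˣ, rayTy K m T (u : 𝓞 K) = θ
      · simp only [if_pos hP]
        exact ray_coset_sum K m T J hJ θ (cf θ.1) (hcfJ θ.1) (hcf θ.1) s
      · simp only [if_neg hP]
        exact tsum_zero
    · intro θ _
      refine Summable.of_norm_bounded hsumJ (fun b => ?_)
      rw [Real.norm_eq_abs]
      split_ifs
      · exact le_of_eq (abs_of_nonneg (czPhi_nonneg K s _))
      · rw [abs_zero]; exact czPhi_nonneg K s _
      · rw [abs_zero]; exact czPhi_nonneg K s _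
  have key2 := ray_unfold K m T J hs.1
  rw [key1] at key2
  have hposJ : (0 : ℝ) < absNorm (J : Ideal (𝓞 K)) := by
    have : absNorm (J : Ideal (𝓞 K)) ≠ 0 :=
      Ideal.absNorm_eq_zero_iff.not.mpr (nonZeroDivisors.ne_zero J.2)
    exact_mod_cast Nat.pos_of_ne_zero this
  have e : (absNorm m : ℝ) * ((torsionOrder K : ℝ) *
      ((absNorm (J : Ideal (𝓞 K)) : ℝ) ^ (1 - s) * rayZeta K m T J s))
      = (absNorm ((J : Ideal (𝓞 K)) * m) : ℝ) * ((torsionOrder K : ℝ) *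
        ((absNorm (J : Ideal (𝓞 K)) : ℝ) ^ (-s) * rayZeta K m T J s)) := by
    rw [map_mul, Nat.cast_mul, sub_eq_add_neg, Real.rpow_add hposJ, Real.rpow_one]
    ring
  rw [e, ← key2, rayMain, Finset.mul_sum, ← Finset.sum_sub_distrib]
  refine (Finset.abs_sum_le_sum_abs _ _).trans (Finset.sum_le_sum (fun θ _ => ?_))
  by_cases hP : ∃ u : (𝓞 K)ˣ, rayTy K m T (u : 𝓞 K) = θ
  · rw [if_pos hP, if_pos hP]
    exact (hBf θ s hs).trans (le_abs_self _)
  · rw [if_neg hP, if_neg hP, mul_zero, sub_zero, abs_zero]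
    exact abs_nonneg _

/-! ### Comparing two ray classes -/

/-- Multiplying `J` by a principal ideal generated by a ray generator does not change the ray
class. -/
theorem rayClassSet_mul_span (m : Ideal (𝓞 K)) (T : Set {w : InfinitePlace K // w.IsReal})
    (J : (Ideal (𝓞 K))⁰) (x : 𝓞 K) (hx : x ∈ rayGen K m T)
    (hspan : Ideal.span {x} ∈ (Ideal (𝓞 K))⁰) :
    rayClassSet K m T (J * ⟨Ideal.span {x}, hspan⟩) = rayClassSet K m T J := by
  have hx0 : Ideal.span {x} ≠ (0 : Ideal (𝓞 K)) := nonZeroDivisors.ne_zero hspan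
  ext I
  constructor
  · rintro ⟨a, ha, e⟩
    have e' : (J : Ideal (𝓞 K)) * Ideal.span {x} * (I : Ideal (𝓞 K)) = Ideal.span {a} := e
    have hmem : a ∈ Ideal.span {x} := by
      have h1 : a ∈ Ideal.span {a} := Ideal.mem_span_singleton_self a
      rw [← e'] at h1
      exact Ideal.mul_le_right (Ideal.mul_le_left h1)
    obtain ⟨a', rfl⟩ := Ideal.mem_span_singleton'.mp hmem
    refine ⟨a', rayGen_of_mul ha hx, ?_⟩
    have h2 : (J : Ideal (𝓞 K)) * (I : Ideal (𝓞 K)) * Ideal.span {x}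
        = Ideal.span {a'} * Ideal.span {x} := by
      rw [Ideal.span_singleton_mul_span_singleton, ← e']
      ring
    exact mul_right_cancel₀ hx0 h2
  · rintro ⟨a, ha, e⟩
    refine ⟨a * x, rayGen_mul ha hx, ?_⟩
    show (J : Ideal (𝓞 K)) * Ideal.span {x} * (I : Ideal (𝓞 K)) = Ideal.span {a * x}
    rw [← Ideal.span_singleton_mul_span_singleton, ← e]
    ring

theorem rayZeta_mul_span (m : Ideal (𝓞 K)) (T : Set {w : InfinitePlace K // w.IsReal})
    (J : (Ideal (𝓞 K))⁰) (x : 𝓞 K) (hx : x ∈ rayGen K m T)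
    (hspan : Ideal.span {x} ∈ (Ideal (𝓞 K))⁰) (s : ℝ) :
    rayZeta K m T (J * ⟨Ideal.span {x}, hspan⟩) s = rayZeta K m T J s := by
  unfold rayZeta
  rw [rayClassSet_mul_span K m T J x hx hspan]

/-- One-sided comparison of the partial zeta functions of two ray classes. -/
theorem rayZeta_le_add (m : Ideal (𝓞 K)) (hm : m ≠ ⊥) (T : Set {w : InfinitePlace K // w.IsReal})
    (J J' : (Ideal (𝓞 K))⁰) (hJ : IsCoprime (J : Ideal (𝓞 K)) m)
    (hJ' : IsCoprime (J' : Ideal (𝓞 K)) m) :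
    ∃ B : ℝ, ∀ s : ℝ, 1 < s → s ≤ 2 → rayZeta K m T J s ≤ rayZeta K m T J' s + B := by
  have : Finite (𝓞 K ⧸ m) := Ideal.finiteQuotientOfFreeOfNeBot m hm
  let _ : Fintype (𝓞 K ⧸ m) := Fintype.ofFinite _
  have hJne : (J : Ideal (𝓞 K)) ≠ ⊥ := nonZeroDivisors.ne_zero J.2
  have hnpos : 0 < absNorm (J : Ideal (𝓞 K)) :=
    Nat.pos_of_ne_zero (Ideal.absNorm_eq_zero_iff.not.mpr hJne)
  have hmpos : 0 < absNorm m := Nat.pos_of_ne_zero (Ideal.absNorm_eq_zero_iff.not.mpr hm)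
  -- the auxiliary ray generator `x = 1 + N(m) N(J)`
  set k : ℕ := 1 + absNorm m * absNorm (J : Ideal (𝓞 K)) with hk
  have hkJ : absNorm (J : Ideal (𝓞 K)) ≤ k := by
    rw [hk]
    nlinarith
  have hk0 : k ≠ 0 := by rw [hk]; omega
  have hxgen : ((k : ℕ) : 𝓞 K) ∈ rayGen K m T := by
    refine ⟨?_, fun w hw => ?_⟩
    · have e : ((k : ℕ) : 𝓞 K) - 1
          = ((absNorm m : ℕ) : 𝓞 K) * ((absNorm (J : Ideal (𝓞 K)) : ℕ) : 𝓞 K) := by
        rw [hk]
        push_cast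
        ring
      rw [e]
      exact m.mul_mem_right _ (Ideal.absNorm_mem m)
    · have e : (((k : ℕ) : 𝓞 K) : K) = ((k : ℕ) : K) := by simp
      rw [e, map_natCast]
      exact_mod_cast Nat.pos_of_ne_zero hk0
  have hxne : ((k : ℕ) : 𝓞 K) ≠ 0 := by exact_mod_cast hk0
  have hspan : Ideal.span {((k : ℕ) : 𝓞 K)} ∈ (Ideal (𝓞 K))⁰ :=
    mem_nonZeroDivisors_of_ne_zero (by simpa using hxne)
  have hcopx : IsCoprime (Ideal.span {((k : ℕ) : 𝓞 K)}) m := by
    rw [Ideal.isCoprime_iff_exists]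
    refine ⟨(k : 𝓞 K), Ideal.mem_span_singleton_self _, 1 - (k : 𝓞 K), ?_, by ring⟩
    have := m.neg_mem hxgen.1
    rwa [neg_sub] at this
  have hJ'' : IsCoprime ((J' * ⟨Ideal.span {((k : ℕ) : 𝓞 K)}, hspan⟩ : (Ideal (𝓞 K))⁰) :
      Ideal (𝓞 K)) m := IsCoprime.mul_left hJ' hcopx
  have hle : absNorm (J : Ideal (𝓞 K)) ≤
      absNorm ((J' * ⟨Ideal.span {((k : ℕ) : 𝓞 K)}, hspan⟩ : (Ideal (𝓞 K))⁰) : Ideal (𝓞 K)) := by
    have e : ((J' * ⟨Ideal.span {((k : ℕ) : 𝓞 K)}, hspan⟩ : (Ideal (𝓞 K))⁰) : Ideal (𝓞 K))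
        = (J' : Ideal (𝓞 K)) * Ideal.span {((k : ℕ) : 𝓞 K)} := rfl
    rw [e, map_mul, Ideal.absNorm_span_natCast]
    have h1 : 0 < absNorm (J' : Ideal (𝓞 K)) :=
      Nat.pos_of_ne_zero (Ideal.absNorm_eq_zero_iff.not.mpr (nonZeroDivisors.ne_zero J'.2))
    have h2 : k ≤ k ^ Module.finrank ℤ (𝓞 K) :=
      Nat.le_self_pow (Module.finrank_pos (R := ℤ) (M := 𝓞 K)).ne' k
    calc absNorm (J : Ideal (𝓞 K)) ≤ k := hkJ
      _ ≤ k ^ Module.finrank ℤ (𝓞 K) := h2
      _ = 1 * k ^ Module.finrank ℤ (𝓞 K) := (one_mul _).symm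
      _ ≤ absNorm (J' : Ideal (𝓞 K)) * k ^ Module.finrank ℤ (𝓞 K) :=
        Nat.mul_le_mul_right _ h1
  obtain ⟨B₁, hB₁⟩ := ray_J_compare K m hm T J hJ
  obtain ⟨B₂, hB₂⟩ := ray_J_compare K m hm T _ hJ''
  have hZ'' : ∀ s : ℝ, rayZeta K m T (J' * ⟨Ideal.span {((k : ℕ) : 𝓞 K)}, hspan⟩) s
      = rayZeta K m T J' s := fun s => rayZeta_mul_span K m T J' _ hxgen hspan s
  generalize (J' * ⟨Ideal.span {((k : ℕ) : 𝓞 K)}, hspan⟩ : (Ideal (𝓞 K))⁰) = J'' at hle hB₂ hZ''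
  have hJ''ne : (J'' : Ideal (𝓞 K)) ≠ ⊥ := nonZeroDivisors.ne_zero J''.2
  refine ⟨(|B₁| + |B₂|) * (absNorm (J : Ideal (𝓞 K)) : ℝ), fun s hs1 hs2 => ?_⟩
  have hs : s ∈ Set.Ioc (1 : ℝ) 2 := ⟨hs1, hs2⟩
  have h1 := hB₁ s hs
  have h2 := hB₂ s hs
  rw [hZ'' s] at h2
  have hn1 : (1 : ℝ) ≤ (absNorm (J : Ideal (𝓞 K)) : ℝ) := by exact_mod_cast hnpos
  have hm1 : (1 : ℝ) ≤ (absNorm m : ℝ) := by exact_mod_cast hmpos
  have hnn' : (absNorm (J : Ideal (𝓞 K)) : ℝ) ≤ (absNorm (J'' : Ideal (𝓞 K)) : ℝ) := by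
    exact_mod_cast hle
  have hw1 : (1 : ℝ) ≤ (torsionOrder K : ℝ) := by
    exact_mod_cast Nat.one_le_iff_ne_zero.mpr (torsionOrder_ne_zero K)
  have hZ := rayZeta_nonneg K m T J s
  have hZ' := rayZeta_nonneg K m T J' s
  have hp : (absNorm (J'' : Ideal (𝓞 K)) : ℝ) ^ (1 - s)
      ≤ (absNorm (J : Ideal (𝓞 K)) : ℝ) ^ (1 - s) :=
    Real.rpow_le_rpow_of_nonpos (by linarith) hnn' (by linarith)
  have hppos : 0 < (absNorm (J : Ideal (𝓞 K)) : ℝ) ^ (1 - s) :=
    Real.rpow_pos_of_pos (by linarith) _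
  have hpn : 1 ≤ (absNorm (J : Ideal (𝓞 K)) : ℝ) ^ (1 - s) * (absNorm (J : Ideal (𝓞 K)) : ℝ) := by
    have e : (absNorm (J : Ideal (𝓞 K)) : ℝ) ^ (1 - s) * (absNorm (J : Ideal (𝓞 K)) : ℝ) =
        (absNorm (J : Ideal (𝓞 K)) : ℝ) ^ (2 - s) := by
      have : (2 - s) = (1 - s) + 1 := by ring
      rw [this, Real.rpow_add (by linarith), Real.rpow_one]
    rw [e]
    exact Real.one_le_rpow hn1 (by linarith)
  set n : ℝ := (absNorm (J : Ideal (𝓞 K)) : ℝ) with hn
  set p : ℝ := n ^ (1 - s) with hpdef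
  set p' : ℝ := (absNorm (J'' : Ideal (𝓞 K)) : ℝ) ^ (1 - s) with hp'def
  set w : ℝ := (torsionOrder K : ℝ) with hw
  set μ : ℝ := (absNorm m : ℝ) with hμ
  set M : ℝ := rayMain K m T s with hM
  set Z : ℝ := rayZeta K m T J s with hZdef
  set Z' : ℝ := rayZeta K m T J' s with hZ'def
  have h1' : μ * (w * (p * Z)) ≤ M + B₁ := by
    have := (abs_le.mp h1).1
    linarith
  have h2' : M ≤ μ * (w * (p' * Z')) + B₂ := by
    have := (abs_le.mp h2).2
    linarith
  have hμw : 0 ≤ μ * w := mul_nonneg (by linarith) (by linarith)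
  have h3 : μ * (w * (p' * Z')) ≤ μ * (w * (p * Z')) := by
    have := mul_le_mul_of_nonneg_left (mul_le_mul_of_nonneg_right hp hZ') hμw
    calc μ * (w * (p' * Z')) = μ * w * (p' * Z') := by ring
      _ ≤ μ * w * (p * Z') := this
      _ = μ * (w * (p * Z')) := by ring
  have hc : 0 < μ * w * p := mul_pos (mul_pos (by linarith) (by linarith)) hppos
  have hcn : 1 ≤ μ * w * p * n := by
    have h5 : 1 * 1 ≤ μ * w := mul_le_mul hm1 hw1 zero_le_one (by linarith)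
    have h6 : 1 * 1 ≤ (μ * w) * (p * n) := mul_le_mul (by linarith) hpn zero_le_one hμw
    linarith
  have hB : B₁ + B₂ ≤ (|B₁| + |B₂|) * (μ * w * p * n) := by
    have h5 : B₁ + B₂ ≤ |B₁| + |B₂| := add_le_add (le_abs_self _) (le_abs_self _)
    have h6 : 0 ≤ |B₁| + |B₂| := add_nonneg (abs_nonneg _) (abs_nonneg _)
    nlinarith
  have hfin : (μ * w * p) * Z ≤ (μ * w * p) * (Z' + (|B₁| + |B₂|) * n) := by
    have e1 : (μ * w * p) * Z = μ * (w * (p * Z)) := by ring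
    have e2 : (μ * w * p) * (Z' + (|B₁| + |B₂|) * n)
        = μ * (w * (p * Z')) + (|B₁| + |B₂|) * (μ * w * p * n) := by ring
    rw [e1, e2]
    linarith
  exact le_of_mul_le_mul_left hfin hc

/-- **Partial zeta functions of ray classes differ by a bounded amount** on `1 < s ≤ 2`. -/
theorem rayZeta_sub_bounded (m : Ideal (𝓞 K)) (hm : m ≠ ⊥)
    (T : Set {w : InfinitePlace K // w.IsReal}) (J J' : (Ideal (𝓞 K))⁰)
    (hJ : IsCoprime (J : Ideal (𝓞 K)) m) (hJ' : IsCoprime (J' : Ideal (𝓞 K)) m) :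
    ∃ B : ℝ, ∀ s : ℝ, 1 < s → s ≤ 2 → |rayZeta K m T J s - rayZeta K m T J' s| ≤ B := by
  obtain ⟨B₁, hB₁⟩ := rayZeta_le_add K m hm T J J' hJ hJ'
  obtain ⟨B₂, hB₂⟩ := rayZeta_le_add K m hm T J' J hJ' hJ
  refine ⟨max B₁ B₂, fun s hs1 hs2 => ?_⟩
  rw [abs_le]
  have h1 := hB₁ s hs1 hs2
  have h2 := hB₂ s hs1 hs2
  have := le_max_left B₁ B₂
  have := le_max_right B₁ B₂
  constructor <;> linarith

end Fermat.Agent.CFT.Ray
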